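/-
S56 / Tan: NORMAL FORM of deformations to the dual numbers and their tangent cocycles.

`rbar : MRep k` a residual matrix representation.  A lift `ρ' : MRep k[ε]` of `rbar` is written
`ρ'(g) = (1 + ε c(g)) rbar(g)`, i.e. `c(g) = (ε-part of ρ'(g)) * rbar(g)⁻¹ ∈ M₂(k)`; `c` is a
`1`-cocycle for the adjoint action `X ↦ rbar(g) X rbar(g)⁻¹`.  (Helper names are prefixed `s56tan`.)
-/
import Mathlib
import Fermat.Agent.S53.Bridge

set_option autoImplicit false

noncomputable section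

namespace Fermat.Agent.S56

open Fermat.Agent.S53

section Matrix

variable {k : Type} [Field k]

/-- constant part of a matrix over the dual numbers -/
def s56tanFst (M : Matrix (Fin 2) (Fin 2) (DualNumber k)) : Matrix (Fin 2) (Fin 2) k :=
  M.map TrivSqZeroExt.fst

/-- `ε`-part of a matrix over the dual numbers -/
def s56tanSnd (M : Matrix (Fin 2) (Fin 2) (DualNumber k)) : Matrix (Fin 2) (Fin 2) k :=
  M.map TrivSqZeroExt.snd

@[simp] theorem s56tanFst_apply (M : Matrix (Fin 2) (Fin 2) (DualNumber k)) (i j : Fin 2) :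
    s56tanFst M i j = TrivSqZeroExt.fst (M i j) := rfl

@[simp] theorem s56tanSnd_apply (M : Matrix (Fin 2) (Fin 2) (DualNumber k)) (i j : Fin 2) :
    s56tanSnd M i j = TrivSqZeroExt.snd (M i j) := rfl

theorem s56tanFst_mul (M N : Matrix (Fin 2) (Fin 2) (DualNumber k)) :
    s56tanFst (M * N) = s56tanFst M * s56tanFst N := by
  ext i j
  simp [Matrix.mul_apply, TrivSqZeroExt.fst_sum]

theorem s56tanSnd_mul (M N : Matrix (Fin 2) (Fin 2) (DualNumber k)) :
    s56tanSnd (M * N) = s56tanFst M * s56tanSnd N + s56tanSnd M * s56tanFst N := by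
  ext i j
  simp [Matrix.mul_apply, mul_comm]
  ring

theorem s56tanFst_one : s56tanFst (1 : Matrix (Fin 2) (Fin 2) (DualNumber k)) = 1 := by
  ext i j
  by_cases h : i = j
  · subst h; simp
  · simp [Matrix.one_apply_ne h]

theorem s56tanSnd_one : s56tanSnd (1 : Matrix (Fin 2) (Fin 2) (DualNumber k)) = 0 := by
  ext i j
  by_cases h : i = j
  · subst h; simp
  · simp [Matrix.one_apply_ne h]

/-- a matrix over the dual numbers is determined by its two parts -/
theorem s56tan_matrix_ext {M N : Matrix (Fin 2) (Fin 2) (DualNumber k)}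
    (h1 : s56tanFst M = s56tanFst N) (h2 : s56tanSnd M = s56tanSnd N) : M = N := by
  ext i j
  · exact congrFun (congrFun h1 i) j
  · exact congrFun (congrFun h2 i) j

/-- the matrix `M₀ + ε M₁` -/
def s56tanMk (M₀ M₁ : Matrix (Fin 2) (Fin 2) k) : Matrix (Fin 2) (Fin 2) (DualNumber k) :=
  Matrix.of fun i j => TrivSqZeroExt.inl (M₀ i j) + TrivSqZeroExt.inr (M₁ i j)

@[simp] theorem s56tanFst_mk (M₀ M₁ : Matrix (Fin 2) (Fin 2) k) :
    s56tanFst (s56tanMk M₀ M₁) = M₀ := by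
  ext i j; simp [s56tanMk]

@[simp] theorem s56tanSnd_mk (M₀ M₁ : Matrix (Fin 2) (Fin 2) k) :
    s56tanSnd (s56tanMk M₀ M₁) = M₁ := by
  ext i j; simp [s56tanMk]

end Matrix

section Cocycle

variable {k : Type} [Field k] (rbar : MRep k)

/-- `ρ'` lifts `rbar` (entrywise constant parts) -/
def S56TanIsLift (ρ' : MRep (DualNumber k)) : Prop :=
  ∀ g : GQ, s56tanFst (ρ' g) = rbar g

/-- the tangent cocycle `c(g) = (ε-part of ρ'(g)) * rbar(g)⁻¹` of a lift to the dual numbers -/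
def s56tanCoc (ρ' : MRep (DualNumber k)) (g : GQ) : Matrix (Fin 2) (Fin 2) k :=
  s56tanSnd (ρ' g) * rbar g⁻¹

/-- adjoint cocycles -/
def S56TanIsCocycle (c : GQ → Matrix (Fin 2) (Fin 2) k) : Prop :=
  ∀ g h : GQ, c (g * h) = c g + rbar g * c h * rbar g⁻¹

/-- adjoint coboundaries -/
def S56TanIsCoboundary (c : GQ → Matrix (Fin 2) (Fin 2) k) : Prop :=
  ∃ X : Matrix (Fin 2) (Fin 2) k, ∀ g : GQ, c g = rbar g * X * rbar g⁻¹ - X

variable {rbar}

theorem s56tan_rbar_mul_inv (g : GQ) : rbar g * rbar g⁻¹ = 1 := by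
  rw [← map_mul, mul_inv_cancel, map_one]

theorem s56tan_rbar_inv_mul (g : GQ) : rbar g⁻¹ * rbar g = 1 := by
  rw [← map_mul, inv_mul_cancel, map_one]

/-- reconstruction of the lift from its cocycle: `ρ'(g) = (1 + ε c(g)) rbar(g)` -/
theorem s56tanSnd_eq_coc_mul {ρ' : MRep (DualNumber k)} (g : GQ) :
    s56tanSnd (ρ' g) = s56tanCoc rbar ρ' g * rbar g := by
  rw [s56tanCoc, Matrix.mul_assoc, s56tan_rbar_inv_mul, Matrix.mul_one]

theorem s56tanCoc_isCocycle {ρ' : MRep (DualNumber k)} (hl : S56TanIsLift rbar ρ') :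
    S56TanIsCocycle rbar (s56tanCoc rbar ρ') := by
  intro g h
  have h1 : s56tanSnd (ρ' (g * h)) =
      rbar g * s56tanSnd (ρ' h) + s56tanSnd (ρ' g) * rbar h := by
    rw [map_mul, s56tanSnd_mul, hl g, hl h]
  have h2 : rbar (g * h)⁻¹ = rbar h⁻¹ * rbar g⁻¹ := by rw [mul_inv_rev, map_mul]
  simp only [s56tanCoc]
  rw [h1, h2, Matrix.add_mul, add_comm]
  congr 1
  · rw [Matrix.mul_assoc (s56tanSnd (ρ' g)), ← Matrix.mul_assoc (rbar h), s56tan_rbar_mul_inv,
      Matrix.one_mul]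
  · simp only [Matrix.mul_assoc]

end Cocycle

end Fermat.Agent.S56
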