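/-
S56 / Tan: generators of a complete local noetherian `𝒪`-algebra from a bound on its relative
tangent space.

`R` complete local noetherian `𝒪`-algebra with residue field `k = ResidueField 𝒪`.  If any `r + 1`
`𝒪`-algebra homs `R → k[ε]` have `k`-linearly dependent tangent functionals, then `R` is a quotient
of the power series ring in `r` variables over `𝒪`.  (Helper names are prefixed `s56tan`.)
-/
import Mathlib
import Fermat.Agent.S53.PowerSeriesComplete
import Fermat.Agent.S53.Tangent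

set_option autoImplicit false

namespace Fermat.Agent.S56

open IsLocalRing Fermat.Agent.S53

section General

variable {𝒪 : Type} [CommRing 𝒪] [IsLocalRing 𝒪]
variable {R : Type} [CommRing R] [IsLocalRing R] [Algebra 𝒪 R]

/-- every element of `R` is a scalar plus an element of the maximal ideal -/
theorem s56tan_exists_sub_mem
    (hres : Function.Surjective (residue R ∘ algebraMap 𝒪 R)) (a : R) :
    ∃ o : 𝒪, a - algebraMap 𝒪 R o ∈ maximalIdeal R := by
  obtain ⟨o, ho⟩ := hres (residue R a)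
  refine ⟨o, ?_⟩
  rw [← residue_eq_zero_iff, map_sub, sub_eq_zero]
  exact ho.symm

/-- the canonical map of `R` to the residue field of the base -/
theorem s56tan_exists_resToBase [IsLocalHom (algebraMap 𝒪 R)]
    (hres : Function.Surjective (residue R ∘ algebraMap 𝒪 R)) :
    ∃ ρ : R →ₐ[𝒪] ResidueField 𝒪, Function.Surjective ρ ∧
      RingHom.ker (ρ : R →+* ResidueField 𝒪) = maximalIdeal R := by
  have hbij : Function.Bijective (ResidueField.map (algebraMap 𝒪 R)) := by
    refine ⟨(ResidueField.map (algebraMap 𝒪 R)).injective, ?_⟩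
    intro x
    obtain ⟨o, ho⟩ := hres x
    exact ⟨residue 𝒪 o, by rw [ResidueField.map_residue]; exact ho⟩
  let e : ResidueField 𝒪 ≃+* ResidueField R := RingEquiv.ofBijective _ hbij
  let ρ0 : R →+* ResidueField 𝒪 := (e.symm : ResidueField R →+* ResidueField 𝒪).comp (residue R)
  have hρ0 : ∀ o : 𝒪, ρ0 (algebraMap 𝒪 R o) = algebraMap 𝒪 (ResidueField 𝒪) o := by
    intro o
    show e.symm (residue R (algebraMap 𝒪 R o)) = _
    rw [RingEquiv.symm_apply_eq, ResidueField.algebraMap_eq]
    show _ = ResidueField.map (algebraMap 𝒪 R) (residue 𝒪 o)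
    rw [ResidueField.map_residue]
  refine ⟨{ ρ0 with commutes' := hρ0 }, ?_, ?_⟩
  · intro x
    obtain ⟨a, ha⟩ := residue_surjective (e x)
    refine ⟨a, ?_⟩
    show e.symm (residue R a) = x
    rw [ha, RingEquiv.symm_apply_apply]
  · ext a
    rw [RingHom.mem_ker]
    show e.symm (residue R a) = 0 ↔ _
    rw [map_eq_zero_iff _ e.symm.injective, residue_eq_zero_iff]

/-- the derivation identity behind `s56tan_exists_algHom_dualNumber` -/
theorem s56tan_leibniz
    (hres : Function.Surjective (residue R ∘ algebraMap 𝒪 R)) (ℓ : R →ₗ[𝒪] ResidueField 𝒪)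
    (h1 : ∀ a ∈ maximalIdeal R, ∀ b ∈ maximalIdeal R, ℓ (a * b) = 0)
    (h2 : ∀ o : 𝒪, ℓ (algebraMap 𝒪 R o) = 0)
    (ρ : R →ₐ[𝒪] ResidueField 𝒪)
    (hρ : RingHom.ker (ρ : R →+* ResidueField 𝒪) = maximalIdeal R) (a b : R) :
    ℓ (a * b) = ρ a * ℓ b + ρ b * ℓ a := by
  obtain ⟨oa, hoa⟩ := s56tan_exists_sub_mem hres a
  obtain ⟨ob, hob⟩ := s56tan_exists_sub_mem hres b
  set a' := a - algebraMap 𝒪 R oa with ha'
  set b' := b - algebraMap 𝒪 R ob with hb'
  have ha : a = algebraMap 𝒪 R oa + a' := by rw [ha']; ring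
  have hb : b = algebraMap 𝒪 R ob + b' := by rw [hb']; ring
  have hρa' : ρ a' = 0 := by
    have : a' ∈ RingHom.ker (ρ : R →+* ResidueField 𝒪) := by rw [hρ]; exact hoa
    simpa using this
  have hρb' : ρ b' = 0 := by
    have : b' ∈ RingHom.ker (ρ : R →+* ResidueField 𝒪) := by rw [hρ]; exact hob
    simpa using this
  have hρa : ρ a = algebraMap 𝒪 (ResidueField 𝒪) oa := by
    rw [ha, map_add, hρa', add_zero, AlgHom.commutes]
  have hρb : ρ b = algebraMap 𝒪 (ResidueField 𝒪) ob := by
    rw [hb, map_add, hρb', add_zero, AlgHom.commutes]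
  have hℓa : ℓ a = ℓ a' := by rw [ha, map_add, h2, zero_add]
  have hℓb : ℓ b = ℓ b' := by rw [hb, map_add, h2, zero_add]
  have hab : a * b = algebraMap 𝒪 R (oa * ob) + oa • b' + ob • a' + a' * b' := by
    rw [ha, hb, map_mul, Algebra.smul_def, Algebra.smul_def]; ring
  rw [hab, map_add, map_add, map_add, h2, h1 _ hoa _ hob, map_smul, map_smul, hρa, hρb, hℓa, hℓb,
    Algebra.smul_def, Algebra.smul_def]
  ring

/-- algebra homs into the dual numbers from functionals on the relative cotangent space -/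
theorem s56tan_exists_algHom_dualNumber [IsLocalHom (algebraMap 𝒪 R)]
    (hres : Function.Surjective (residue R ∘ algebraMap 𝒪 R)) (ℓ : R →ₗ[𝒪] ResidueField 𝒪)
    (h1 : ∀ a ∈ maximalIdeal R, ∀ b ∈ maximalIdeal R, ℓ (a * b) = 0)
    (h2 : ∀ o : 𝒪, ℓ (algebraMap 𝒪 R o) = 0) :
    letI := dualNumberAlgebra 𝒪
    ∃ φ : R →ₐ[𝒪] DualNumber (ResidueField 𝒪),
      ∀ a ∈ maximalIdeal R, φ a = TrivSqZeroExt.inr (ℓ a) := by
  letI := dualNumberAlgebra 𝒪
  obtain ⟨ρ, -, hρ⟩ := s56tan_exists_resToBase (𝒪 := 𝒪) (R := R) hres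
  have hleib := s56tan_leibniz hres ℓ h1 h2 ρ hρ
  refine ⟨{ toFun := fun a => TrivSqZeroExt.inl (ρ a) + TrivSqZeroExt.inr (ℓ a)
            map_one' := ?_
            map_mul' := ?_
            map_zero' := ?_
            map_add' := ?_
            commutes' := ?_ }, ?_⟩
  · have : ℓ 1 = 0 := by simpa using h2 1
    simp [this]
  · intro a b
    rw [hleib a b, map_mul]
    ext
    · simp
    · simp [mul_comm]
  · simp
  · intro a b
    simp only [map_add, TrivSqZeroExt.inl_add, TrivSqZeroExt.inr_add]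
    abel
  · intro o
    simp only [AlgHom.commutes, h2, TrivSqZeroExt.inr_zero, add_zero]
    rfl
  · intro a ha
    have : ρ a = 0 := by
      have : a ∈ RingHom.ker (ρ : R →+* ResidueField 𝒪) := by rw [hρ]; exact ha
      simpa using this
    simp [this]

end General

section Cotangent

variable {𝒪 : Type} [CommRing 𝒪] [IsLocalRing 𝒪] [Finite (ResidueField 𝒪)]
variable {R : Type} [CommRing R] [IsLocalRing R] [IsNoetherianRing R] [Algebra 𝒪 R]
  [IsLocalHom (algebraMap 𝒪 R)]

/-- generators of the maximal ideal of `R` modulo `𝔪_𝒪`, together with a dual family of functionals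
on the relative cotangent space -/
theorem s56tan_exists_cotangent_dual_family
    (hres : Function.Surjective (residue R ∘ algebraMap 𝒪 R)) :
    ∃ (d : ℕ) (t : Fin d → R) (ℓ : Fin d → (R →ₗ[𝒪] ResidueField 𝒪)),
      (∀ j, t j ∈ maximalIdeal R) ∧ (∀ i o, ℓ i (algebraMap 𝒪 R o) = 0) ∧
      (∀ i, ∀ a ∈ maximalIdeal R, ∀ b ∈ maximalIdeal R, ℓ i (a * b) = 0) ∧
      (∀ i j, ℓ i (t j) = if i = j then 1 else 0) ∧
      maximalIdeal R = (maximalIdeal 𝒪).map (algebraMap 𝒪 R) ⊔ Ideal.span (Set.range t) := by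
  have hmap_le : (maximalIdeal 𝒪).map (algebraMap 𝒪 R) ≤ maximalIdeal R :=
    IsLocalRing.map_maximalIdeal_le (algebraMap 𝒪 R)
  set J : Ideal R := (maximalIdeal 𝒪).map (algebraMap 𝒪 R) ⊔ maximalIdeal R ^ 2 with hJ
  have hJle : J ≤ maximalIdeal R := sup_le hmap_le (Ideal.pow_le_self two_ne_zero)
  set N : Submodule 𝒪 R :=
    LinearMap.range (Algebra.linearMap 𝒪 R) ⊔ J.restrictScalars 𝒪 with hN
  have hJN : ∀ a ∈ J, a ∈ N := fun a ha =>
    (le_sup_right : J.restrictScalars 𝒪 ≤ N) ha
  have hON : ∀ o : 𝒪, algebraMap 𝒪 R o ∈ N := fun o =>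
    (le_sup_left : LinearMap.range (Algebra.linearMap 𝒪 R) ≤ N) ⟨o, rfl⟩
  have hWtors : ∀ o ∈ maximalIdeal 𝒪, ∀ w : R ⧸ N, o • w = 0 := by
    intro o ho w
    obtain ⟨a, rfl⟩ := N.mkQ_surjective w
    rw [← map_smul, Submodule.mkQ_apply, Submodule.Quotient.mk_eq_zero]
    apply hJN
    rw [Algebra.smul_def]
    exact (le_sup_left : _ ≤ J) (Ideal.mul_mem_right _ _ (Ideal.mem_map_of_mem _ ho))
  -- finiteness of the relative cotangent space
  have hfinW : Finite (R ⧸ N) := by
    obtain ⟨s, hs⟩ : (maximalIdeal R).FG := IsNoetherian.noetherian _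
    have hspan : ∀ a ∈ maximalIdeal R,
        N.mkQ a ∈ Submodule.span 𝒪 (N.mkQ '' (s : Set R)) := by
      intro a ha
      rw [← hs] at ha
      refine Submodule.span_induction (p := fun a _ =>
        N.mkQ a ∈ Submodule.span 𝒪 (N.mkQ '' (s : Set R))) ?_ ?_ ?_ ?_ ha
      · intro x hx
        exact Submodule.subset_span ⟨x, hx, rfl⟩
      · rw [map_zero]; exact Submodule.zero_mem _
      · intro x y _ _ hx hy
        rw [map_add]; exact Submodule.add_mem _ hx hy
      · intro c x hx hx'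
        obtain ⟨o, ho⟩ := s56tan_exists_sub_mem hres c
        have hxm : x ∈ maximalIdeal R := by rw [← hs]; exact hx
        have hdec : c • x = o • x + (c - algebraMap 𝒪 R o) * x := by
          rw [smul_eq_mul, Algebra.smul_def]; ring
        have hz : N.mkQ ((c - algebraMap 𝒪 R o) * x) = 0 := by
          rw [Submodule.mkQ_apply, Submodule.Quotient.mk_eq_zero]
          apply hJN
          exact (le_sup_right : _ ≤ J) (by rw [pow_two]; exact Ideal.mul_mem_mul ho hxm)
        rw [hdec, map_add, hz, add_zero, map_smul]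
        exact Submodule.smul_mem _ _ hx'
    have htop : Submodule.span 𝒪 (N.mkQ '' (s : Set R)) = ⊤ := by
      rw [eq_top_iff]
      rintro w -
      obtain ⟨a, rfl⟩ := N.mkQ_surjective w
      obtain ⟨o, ho⟩ := s56tan_exists_sub_mem hres a
      have : N.mkQ a = N.mkQ (a - algebraMap 𝒪 R o) := by
        rw [map_sub, sub_eq_self.mpr]
        rw [Submodule.mkQ_apply, Submodule.Quotient.mk_eq_zero]
        exact hON o
      rw [this]
      exact hspan _ ho
    have hM : Module.IsTorsionBySet 𝒪 (R ⧸ N) (maximalIdeal 𝒪) := by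
      intro w o
      exact hWtors o.1 o.2 w
    letI : Module (ResidueField 𝒪) (R ⧸ N) := hM.module
    haveI : IsScalarTower 𝒪 (ResidueField 𝒪) (R ⧸ N) := hM.isScalarTower
    haveI : Module.Finite 𝒪 (R ⧸ N) := by
      classical
      exact ⟨⟨(s.image N.mkQ), by rw [Finset.coe_image]; exact htop⟩⟩
    haveI : Module.Finite (ResidueField 𝒪) (R ⧸ N) :=
      Module.Finite.of_restrictScalars_finite 𝒪 (ResidueField 𝒪) (R ⧸ N)
    exact Module.finite_of_finite (ResidueField 𝒪)
  obtain ⟨d, w, ℓ, hℓw, hspan⟩ := tangent_exists_dual_family hWtors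
  have hlift : ∀ j, ∃ a ∈ maximalIdeal R, N.mkQ a = w j := by
    intro j
    obtain ⟨a, ha⟩ := N.mkQ_surjective (w j)
    obtain ⟨o, ho⟩ := s56tan_exists_sub_mem hres a
    refine ⟨a - algebraMap 𝒪 R o, ho, ?_⟩
    rw [map_sub, ha, sub_eq_self, Submodule.mkQ_apply, Submodule.Quotient.mk_eq_zero]
    exact hON o
  choose t ht htw using hlift
  refine ⟨d, t, fun i => (ℓ i).comp N.mkQ, ht, ?_, ?_, ?_, ?_⟩
  · intro i o
    have : N.mkQ (algebraMap 𝒪 R o) = 0 := by
      rw [Submodule.mkQ_apply, Submodule.Quotient.mk_eq_zero]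
      exact hON o
    simp [this]
  · intro i a ha b hb
    have : N.mkQ (a * b) = 0 := by
      rw [Submodule.mkQ_apply, Submodule.Quotient.mk_eq_zero]
      apply hJN
      exact (le_sup_right : _ ≤ J) (by rw [pow_two]; exact Ideal.mul_mem_mul ha hb)
    simp [this]
  · intro i j
    simp [htw, hℓw]
  · apply le_antisymm
    · have hfg : (maximalIdeal R).FG := IsNoetherian.noetherian _
      refine Submodule.le_of_le_smul_of_le_jacobson_bot hfg
        (IsLocalRing.jacobson_eq_maximalIdeal ⊥ bot_ne_top).ge ?_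
      intro a ha
      have h1 : Submodule.map N.mkQ (Submodule.span 𝒪 (Set.range t)) = ⊤ := by
        rw [Submodule.map_span, ← Set.range_comp]
        have : N.mkQ ∘ t = w := funext htw
        rw [this]
        exact hspan
      rw [Submodule.map_mkQ_eq_top] at h1
      have h2 : a ∈ N ⊔ Submodule.span 𝒪 (Set.range t) := by rw [h1]; trivial
      obtain ⟨y, hy, z, hz, hyz⟩ := Submodule.mem_sup.mp h2
      obtain ⟨y1, hy1, y2, hy2, hy12⟩ := Submodule.mem_sup.mp hy
      obtain ⟨o, rfl⟩ := hy1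
      have hz' : z ∈ Ideal.span (Set.range t) :=
        Submodule.span_le_restrictScalars 𝒪 R (Set.range t) hz
      have hzm : z ∈ maximalIdeal R :=
        (Ideal.span_le.mpr (by rintro _ ⟨j, rfl⟩; exact ht j)) hz'
      have hy2J : y2 ∈ J := hy2
      have hom : algebraMap 𝒪 R o ∈ maximalIdeal R := by
        have : algebraMap 𝒪 R o = a - y2 - z := by
          rw [← hyz, ← hy12, Algebra.linearMap_apply]; ring
        rw [this]
        exact sub_mem (sub_mem ha (hJle hy2J)) hzm
      have ho : o ∈ maximalIdeal 𝒪 := by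
        by_contra hcon
        have hu : IsUnit o := by
          by_contra h; exact hcon ((IsLocalRing.mem_maximalIdeal o).mpr h)
        exact ((IsLocalRing.mem_maximalIdeal _).mp hom) (hu.map (algebraMap 𝒪 R))
      have hoJ : algebraMap 𝒪 R o ∈ (maximalIdeal 𝒪).map (algebraMap 𝒪 R) :=
        Ideal.mem_map_of_mem _ ho
      rw [← hyz, ← hy12]
      rcases Submodule.mem_sup.mp hy2J with ⟨j1, hj1, j2, hj2, hj12⟩
      rw [← hj12]
      have e : (Algebra.linearMap 𝒪 R) o + (j1 + j2) + z = ((algebraMap 𝒪 R o + j1) + z) + j2 := by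
        simp only [Algebra.linearMap_apply]; ring
      rw [e]
      refine Submodule.add_mem_sup (Submodule.add_mem_sup (add_mem hoJ hj1) hz') ?_
      rw [smul_eq_mul, ← pow_two]
      exact hj2
    · exact sup_le hmap_le (Ideal.span_le.mpr (by rintro _ ⟨j, rfl⟩; exact ht j))

end Cotangent

section Main

variable {𝒪 : Type} [CommRing 𝒪] [IsLocalRing 𝒪] [IsPrecomplete (maximalIdeal 𝒪) 𝒪]
variable {R : Type} [CommRing R] [IsLocalRing R] [IsNoetherianRing R]
  [IsAdicComplete (maximalIdeal R) R] [Algebra 𝒪 R] [IsLocalHom (algebraMap 𝒪 R)]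

omit [IsNoetherianRing R] in
/-- `r` elements generating the maximal ideal modulo `𝔪_𝒪` give a surjection from the power series
ring in `r` variables -/
theorem s56tan_exists_surjective_of_generators
    (hres : Function.Surjective (residue R ∘ algebraMap 𝒪 R)) (r : ℕ) (t : Fin r → R)
    (ht : ∀ i, t i ∈ maximalIdeal R)
    (hgen : maximalIdeal R ≤
      (maximalIdeal 𝒪).map (algebraMap 𝒪 R) ⊔ Ideal.span (Set.range t)) :
    ∃ γ : MvPowerSeries (Fin r) 𝒪 →ₐ[𝒪] R, Function.Surjective γ := by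
  obtain ⟨φ, hφX, -⟩ := exists_algHom_X_eq (𝒪 := 𝒪) t ht
  refine ⟨φ, algHom_surjective φ (fun i => by rw [hφX]; exact ht i) hres ?_⟩
  have : (fun i => φ (MvPowerSeries.X i)) = t := funext hφX
  rw [this, sup_comm]
  exact hgen

/-- **Generators from the tangent space.**  If any `r + 1` algebra homs `R → k[ε]` have linearly
dependent tangent functionals, then `R` is a quotient of `𝒪⟦x₁, …, x_r⟧`. -/
theorem s56tan_exists_surjective_of_tangent_bound [Finite (ResidueField 𝒪)]
    (hres : Function.Surjective (residue R ∘ algebraMap 𝒪 R)) (r : ℕ)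
    (hT : letI := dualNumberAlgebra 𝒪
      ∀ φ : Fin (r + 1) → (R →ₐ[𝒪] DualNumber (ResidueField 𝒪)),
        ∃ c : Fin (r + 1) → ResidueField 𝒪, c ≠ 0 ∧
          ∀ a ∈ maximalIdeal R, ∑ i, c i * TrivSqZeroExt.snd (φ i a) = 0) :
    ∃ γ : MvPowerSeries (Fin r) 𝒪 →ₐ[𝒪] R, Function.Surjective γ := by
  letI := dualNumberAlgebra 𝒪
  obtain ⟨d, t, ℓ, ht, hℓ2, hℓ1, hℓt, hmax⟩ :=
    s56tan_exists_cotangent_dual_family (𝒪 := 𝒪) (R := R) hres
  by_cases hd : d ≤ r
  · refine s56tan_exists_surjective_of_generators hres r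
      (fun j => if h : (j : ℕ) < d then t ⟨j, h⟩ else 0) ?_ ?_
    · intro j
      split_ifs
      · exact ht _
      · exact zero_mem _
    · rw [hmax]
      refine sup_le_sup_left (Ideal.span_mono ?_) _
      rintro _ ⟨j, rfl⟩
      refine ⟨⟨j, lt_of_lt_of_le j.2 hd⟩, ?_⟩
      simp
  · exfalso
    have hd' : r + 1 ≤ d := by omega
    have hφ : ∀ i : Fin (r + 1), ∃ φ : R →ₐ[𝒪] DualNumber (ResidueField 𝒪),
        ∀ a ∈ maximalIdeal R, φ a = TrivSqZeroExt.inr (ℓ (Fin.castLE hd' i) a) :=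
      fun i => s56tan_exists_algHom_dualNumber hres (ℓ (Fin.castLE hd' i)) (hℓ1 _) (hℓ2 _)
    choose φ hφ using hφ
    obtain ⟨c, hc0, hc⟩ := hT φ
    apply hc0
    funext j
    have h := hc (t (Fin.castLE hd' j)) (ht _)
    have h2 : ∀ i : Fin (r + 1),
        c i * TrivSqZeroExt.snd (φ i (t (Fin.castLE hd' j))) = if i = j then c j else 0 := by
      intro i
      rw [hφ i _ (ht _), TrivSqZeroExt.snd_inr, hℓt]
      by_cases hij : i = j
      · subst hij; simp
      · have : Fin.castLE hd' i ≠ Fin.castLE hd' j := fun h' => hij (Fin.castLE_injective hd' h')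
        simp [hij, this]
    rw [Finset.sum_congr rfl (fun i _ => h2 i)] at h
    simpa using h

end Main

end Fermat.Agent.S56
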