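/-
S56 / Tan: `𝒪`-algebra homs from a complete local noetherian `𝒪`-algebra `R` to the dual numbers
`k[ε]`: they are local, determined by their tangent functional `snd ∘ φ`, finitely many, and if there
are at most `|k| ^ r` of them then `R` is a quotient of the power series ring in `r` variables
(`s56tan_exists_surjective_of_card_le`).  (Helper names are prefixed `s56tan`.)
-/
import Mathlib
import Fermat.Agent.S56.Tan.Generators
import Fermat.Agent.S53.Functor
import Fermat.Agent.S53.Levels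

set_option autoImplicit false

noncomputable section

namespace Fermat.Agent.S56

open IsLocalRing Fermat.Agent.S53

section DualTarget

variable (𝒪 : Type) [CommRing 𝒪] [IsLocalRing 𝒪]

theorem s56tan_dualNumber_maximalIdeal_sq :
    maximalIdeal (DualNumber (ResidueField 𝒪)) ^ 2 = ⊥ := by
  rw [eq_bot_iff, pow_two, Ideal.mul_le]
  intro x hx y hy
  rw [mem_maximalIdeal_dualNumber] at hx hy
  rw [Ideal.mem_bot]
  ext
  · simp [hx]
  · simp [hx, hy]

instance s56tan_isAdicComplete_dualNumber :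
    IsAdicComplete (maximalIdeal (DualNumber (ResidueField 𝒪))) (DualNumber (ResidueField 𝒪)) :=
  isAdicComplete_of_pow_eq_bot _ 2 (s56tan_dualNumber_maximalIdeal_sq 𝒪)

end DualTarget

attribute [local instance] Fermat.Agent.S53.dualNumberAlgebra

section RingSide

variable {𝒪 : Type} [CommRing 𝒪] [IsLocalRing 𝒪] [Finite (ResidueField 𝒪)]
variable {R : Type} [CommRing R] [IsLocalRing R] [Algebra 𝒪 R] [IsLocalHom (algebraMap 𝒪 R)]

theorem s56tan_algebraMap_dualNumber (o : 𝒪) :
    algebraMap 𝒪 (DualNumber (ResidueField 𝒪)) o = TrivSqZeroExt.inl (residue 𝒪 o) := rfl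

omit [IsLocalHom (algebraMap 𝒪 R)] in
/-- every `𝒪`-algebra hom to the dual numbers is local -/
theorem s56tan_isLocalHom_dualNumber (φ : R →ₐ[𝒪] DualNumber (ResidueField 𝒪)) :
    IsLocalHom (φ : R →+* DualNumber (ResidueField 𝒪)) := by
  have h := isArtinianTestAlgebra_dualNumber (𝒪 := 𝒪)
  exact isLocalHom_of_residue_surjective h.isLocalHom h.residue_surjective φ

omit [IsLocalHom (algebraMap 𝒪 R)] in
/-- on the maximal ideal an algebra hom to the dual numbers has no constant part -/
theorem s56tan_map_fst_of_mem (φ : R →ₐ[𝒪] DualNumber (ResidueField 𝒪)) (a : R)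
    (ha : a ∈ maximalIdeal R) : TrivSqZeroExt.fst (φ a) = 0 := by
  haveI := s56tan_isLocalHom_dualNumber (𝒪 := 𝒪) (R := R) φ
  rw [← mem_maximalIdeal_dualNumber]
  exact map_nonunit (φ : R →+* DualNumber (ResidueField 𝒪)) _ ha

/-- the constant part of an algebra hom to the dual numbers is the residue map -/
theorem s56tan_map_fst (hres : Function.Surjective (residue R ∘ algebraMap 𝒪 R))
    (φ : R →ₐ[𝒪] DualNumber (ResidueField 𝒪)) (a : R) :
    ResidueField.map (algebraMap 𝒪 R) (TrivSqZeroExt.fst (φ a)) = residue R a := by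
  obtain ⟨o, ho⟩ := s56tan_exists_sub_mem hres a
  have h1 := s56tan_map_fst_of_mem φ _ ho
  rw [map_sub, AlgHom.commutes, s56tan_algebraMap_dualNumber, TrivSqZeroExt.fst_sub,
    TrivSqZeroExt.fst_inl, sub_eq_zero] at h1
  rw [h1, ResidueField.map_residue]
  rw [← sub_eq_zero, ← map_sub, residue_eq_zero_iff]
  have : algebraMap 𝒪 R o - a = -(a - algebraMap 𝒪 R o) := by ring
  rw [this]
  exact neg_mem ho

omit [IsLocalHom (algebraMap 𝒪 R)] in
/-- the tangent functional `snd ∘ φ` -/
def s56tanFunctional (φ : R →ₐ[𝒪] DualNumber (ResidueField 𝒪)) : R →ₗ[𝒪] ResidueField 𝒪 where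
  toFun a := TrivSqZeroExt.snd (φ a)
  map_add' a b := by rw [map_add, TrivSqZeroExt.snd_add]
  map_smul' o a := by
    rw [RingHom.id_apply, Algebra.smul_def, map_mul, AlgHom.commutes,
      s56tan_algebraMap_dualNumber, TrivSqZeroExt.snd_mul,
      TrivSqZeroExt.fst_inl, TrivSqZeroExt.snd_inl, smul_zero, add_zero, smul_eq_mul,
      Algebra.smul_def]
    rfl

omit [IsLocalHom (algebraMap 𝒪 R)] in
@[simp] theorem s56tanFunctional_apply (φ : R →ₐ[𝒪] DualNumber (ResidueField 𝒪)) (a : R) :
    s56tanFunctional φ a = TrivSqZeroExt.snd (φ a) := rfl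

omit [IsLocalHom (algebraMap 𝒪 R)] in
theorem s56tanFunctional_algebraMap (φ : R →ₐ[𝒪] DualNumber (ResidueField 𝒪)) (o : 𝒪) :
    s56tanFunctional φ (algebraMap 𝒪 R o) = 0 := by
  rw [s56tanFunctional_apply, AlgHom.commutes, s56tan_algebraMap_dualNumber,
    TrivSqZeroExt.snd_inl]

omit [IsLocalHom (algebraMap 𝒪 R)] in
theorem s56tanFunctional_mul (φ : R →ₐ[𝒪] DualNumber (ResidueField 𝒪)) (a b : R)
    (ha : a ∈ maximalIdeal R) (hb : b ∈ maximalIdeal R) : s56tanFunctional φ (a * b) = 0 := by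
  rw [s56tanFunctional_apply, map_mul, TrivSqZeroExt.snd_mul, s56tan_map_fst_of_mem φ a ha,
    s56tan_map_fst_of_mem φ b hb]
  simp

omit [IsLocalHom (algebraMap 𝒪 R)] in
/-- an algebra hom to the dual numbers is determined by its parts -/
theorem s56tan_map_eq (φ : R →ₐ[𝒪] DualNumber (ResidueField 𝒪)) (a : R) :
    φ a = TrivSqZeroExt.inl (TrivSqZeroExt.fst (φ a)) +
      TrivSqZeroExt.inr (s56tanFunctional φ a) := by
  rw [s56tanFunctional_apply, TrivSqZeroExt.inl_fst_add_inr_snd_eq]

/-- a hom with nonzero tangent functional on the maximal ideal is surjective -/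
theorem s56tan_surjective_of_functional_ne
    (hres : Function.Surjective (residue R ∘ algebraMap 𝒪 R))
    (φ : R →ₐ[𝒪] DualNumber (ResidueField 𝒪)) (a : R) (ha : a ∈ maximalIdeal R)
    (hne : s56tanFunctional φ a ≠ 0) : Function.Surjective φ := by
  intro x
  have hφa : φ a = TrivSqZeroExt.inr (s56tanFunctional φ a) := by
    rw [s56tan_map_eq φ a, s56tan_map_fst_of_mem φ a ha, TrivSqZeroExt.inl_zero, zero_add]
  obtain ⟨u, hu⟩ := residue_surjective (R := 𝒪) (TrivSqZeroExt.fst x)
  obtain ⟨v, hv⟩ := residue_surjective (R := 𝒪)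
    (TrivSqZeroExt.snd x / s56tanFunctional φ a)
  refine ⟨algebraMap 𝒪 R u + algebraMap 𝒪 R v * a, ?_⟩
  rw [map_add, map_mul, AlgHom.commutes, AlgHom.commutes, s56tan_algebraMap_dualNumber,
    s56tan_algebraMap_dualNumber, hφa, hu, hv]
  ext
  · simp
  · have hne' : TrivSqZeroExt.snd (φ a) ≠ 0 := hne
    simp [mul_div_cancel₀ _ hne']

/-- a non-surjective hom to the dual numbers has zero tangent functional -/
theorem s56tanFunctional_eq_zero_of_not_surjective
    (hres : Function.Surjective (residue R ∘ algebraMap 𝒪 R))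
    (φ : R →ₐ[𝒪] DualNumber (ResidueField 𝒪)) (h : ¬ Function.Surjective φ) (a : R) :
    s56tanFunctional φ a = 0 := by
  obtain ⟨o, ho⟩ := s56tan_exists_sub_mem hres a
  by_contra hne
  apply h
  refine s56tan_surjective_of_functional_ne hres φ _ ho ?_
  rwa [map_sub, s56tanFunctional_algebraMap, sub_zero]

end RingSide
section CardSide

variable {𝒪 : Type} [CommRing 𝒪] [IsLocalRing 𝒪] [Finite (ResidueField 𝒪)]
variable {R : Type} [CommRing R] [IsLocalRing R] [Algebra 𝒪 R] [IsLocalHom (algebraMap 𝒪 R)]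

/-- two homs to the dual numbers whose tangent functionals agree on generators of the maximal ideal
modulo `𝔪_𝒪` have the same tangent functional -/
theorem s56tanFunctional_eq_of_eq_on
    (hres : Function.Surjective (residue R ∘ algebraMap 𝒪 R)) {d : ℕ} (t : Fin d → R)
    (ht : ∀ j, t j ∈ maximalIdeal R)
    (hmax : maximalIdeal R = (maximalIdeal 𝒪).map (algebraMap 𝒪 R) ⊔ Ideal.span (Set.range t))
    (φ φ' : R →ₐ[𝒪] DualNumber (ResidueField 𝒪))
    (h : ∀ j, s56tanFunctional φ (t j) = s56tanFunctional φ' (t j)) (a : R) :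
    s56tanFunctional φ a = s56tanFunctional φ' a := by
  obtain ⟨ρ, -, hρ⟩ := s56tan_exists_resToBase (𝒪 := 𝒪) (R := R) hres
  set D : R →ₗ[𝒪] ResidueField 𝒪 := s56tanFunctional φ - s56tanFunctional φ' with hD
  have hD1 : ∀ a ∈ maximalIdeal R, ∀ b ∈ maximalIdeal R, D (a * b) = 0 := by
    intro a ha b hb
    rw [hD, LinearMap.sub_apply, s56tanFunctional_mul φ a b ha hb,
      s56tanFunctional_mul φ' a b ha hb, sub_zero]
  have hD2 : ∀ o : 𝒪, D (algebraMap 𝒪 R o) = 0 := by
    intro o
    rw [hD, LinearMap.sub_apply, s56tanFunctional_algebraMap, s56tanFunctional_algebraMap,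
      sub_zero]
  have hleib := s56tan_leibniz hres D hD1 hD2 ρ hρ
  have hρ0 : ∀ a ∈ maximalIdeal R, ρ a = 0 := by
    intro a ha
    have : a ∈ RingHom.ker (ρ : R →+* ResidueField 𝒪) := by rw [hρ]; exact ha
    simpa using this
  -- the ideal of elements of `𝔪_R` killed by `D`
  let J : Ideal R :=
    { carrier := {a | a ∈ maximalIdeal R ∧ D a = 0}
      add_mem' := fun {a b} ha hb => ⟨add_mem ha.1 hb.1, by rw [map_add, ha.2, hb.2, add_zero]⟩
      zero_mem' := ⟨zero_mem _, map_zero _⟩
      smul_mem' := fun c {a} ha => ⟨Ideal.mul_mem_left _ c ha.1, by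
        rw [smul_eq_mul, hleib, ha.2, hρ0 a ha.1, mul_zero, zero_mul, add_zero]⟩ }
  have hJ : maximalIdeal R ≤ J := by
    rw [hmax, sup_le_iff]
    constructor
    · rw [Ideal.map_le_iff_le_comap]
      intro o ho
      exact ⟨map_nonunit (algebraMap 𝒪 R) o ho, hD2 o⟩
    · rw [Ideal.span_le]
      rintro _ ⟨j, rfl⟩
      exact ⟨ht j, by rw [hD, LinearMap.sub_apply, h j, sub_self]⟩
  obtain ⟨o, ho⟩ := s56tan_exists_sub_mem hres a
  have h1 : D (a - algebraMap 𝒪 R o) = 0 := (hJ ho).2
  rw [map_sub, hD2, sub_zero, hD, LinearMap.sub_apply, sub_eq_zero] at h1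
  exact h1

/-- a hom to the dual numbers is determined by its tangent functional -/
theorem s56tan_algHom_ext_of_functional
    (hres : Function.Surjective (residue R ∘ algebraMap 𝒪 R))
    (φ φ' : R →ₐ[𝒪] DualNumber (ResidueField 𝒪))
    (h : ∀ a, s56tanFunctional φ a = s56tanFunctional φ' a) : φ = φ' := by
  refine AlgHom.ext fun a => ?_
  rw [s56tan_map_eq φ a, s56tan_map_eq φ' a, h a]
  congr 2
  apply (ResidueField.map (algebraMap 𝒪 R)).injective
  rw [s56tan_map_fst hres φ a, s56tan_map_fst hres φ' a]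

variable [IsNoetherianRing R]

/-- there are only finitely many `𝒪`-algebra homs to the dual numbers -/
theorem s56tan_finite_algHom_dualNumber
    (hres : Function.Surjective (residue R ∘ algebraMap 𝒪 R)) :
    Finite (R →ₐ[𝒪] DualNumber (ResidueField 𝒪)) := by
  obtain ⟨d, t, ℓ, ht, -, -, -, hmax⟩ :=
    s56tan_exists_cotangent_dual_family (𝒪 := 𝒪) (R := R) hres
  refine Finite.of_injective
    (fun (φ : R →ₐ[𝒪] DualNumber (ResidueField 𝒪)) (j : Fin d) => s56tanFunctional φ (t j)) ?_
  intro φ φ' h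
  exact s56tan_algHom_ext_of_functional hres φ φ'
    (s56tanFunctional_eq_of_eq_on hres t ht hmax φ φ' (fun j => congrFun h j))

/-- **Generators from the number of tangent vectors.**  If there are at most `|k| ^ r` algebra homs
`R → k[ε]` then `R` is a quotient of `𝒪⟦x₁, …, x_r⟧`. -/
theorem s56tan_exists_surjective_of_card_le [IsPrecomplete (maximalIdeal 𝒪) 𝒪]
    [IsAdicComplete (maximalIdeal R) R]
    (hres : Function.Surjective (residue R ∘ algebraMap 𝒪 R)) (r : ℕ)
    (hcard : Nat.card (R →ₐ[𝒪] DualNumber (ResidueField 𝒪)) ≤ Nat.card (ResidueField 𝒪) ^ r) :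
    ∃ γ : MvPowerSeries (Fin r) 𝒪 →ₐ[𝒪] R, Function.Surjective γ := by
  apply s56tan_exists_surjective_of_tangent_bound hres r
  intro φ
  by_contra hcon
  push_neg at hcon
  haveI := s56tan_finite_algHom_dualNumber (𝒪 := 𝒪) (R := R) hres
  -- the combined functionals
  let L : (Fin (r + 1) → ResidueField 𝒪) → (R →ₗ[𝒪] ResidueField 𝒪) := fun c =>
    { toFun := fun a => ∑ i, c i * s56tanFunctional (φ i) a
      map_add' := fun a b => by
        simp only [map_add, mul_add, Finset.sum_add_distrib]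
      map_smul' := fun o a => by
        simp only [map_smul, RingHom.id_apply, Finset.smul_sum, mul_smul_comm] }
  have hL1 : ∀ c, ∀ a ∈ maximalIdeal R, ∀ b ∈ maximalIdeal R, L c (a * b) = 0 := by
    intro c a ha b hb
    show ∑ i, c i * s56tanFunctional (φ i) (a * b) = 0
    refine Finset.sum_eq_zero fun i _ => ?_
    rw [s56tanFunctional_mul (φ i) a b ha hb, mul_zero]
  have hL2 : ∀ c, ∀ o : 𝒪, L c (algebraMap 𝒪 R o) = 0 := by
    intro c o
    show ∑ i, c i * s56tanFunctional (φ i) (algebraMap 𝒪 R o) = 0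
    refine Finset.sum_eq_zero fun i _ => ?_
    rw [s56tanFunctional_algebraMap, mul_zero]
  have hΦ : ∀ c, ∃ ψ : R →ₐ[𝒪] DualNumber (ResidueField 𝒪),
      ∀ a ∈ maximalIdeal R, ψ a = TrivSqZeroExt.inr (L c a) := fun c =>
    s56tan_exists_algHom_dualNumber hres (L c) (hL1 c) (hL2 c)
  choose Φ hΦ using hΦ
  have hinj : Function.Injective Φ := by
    intro c c' hcc
    by_contra hne
    have hne' : c - c' ≠ 0 := sub_ne_zero.mpr hne
    obtain ⟨a, ha, hsum⟩ := hcon (c - c') hne'
    apply hsum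
    have h1 := hΦ c a ha
    rw [hcc, hΦ c' a ha] at h1
    have h2 : L c' a = L c a := TrivSqZeroExt.inr_injective h1
    have h3 : ∑ i, c' i * s56tanFunctional (φ i) a = ∑ i, c i * s56tanFunctional (φ i) a := h2
    simp only [Pi.sub_apply, sub_mul, Finset.sum_sub_distrib, s56tanFunctional_apply] at h3 ⊢
    rw [h3, sub_self]
  have hle := Nat.card_le_card_of_injective Φ hinj
  rw [Nat.card_fun, Nat.card_fin] at hle
  have hk : 1 < Nat.card (ResidueField 𝒪) := Finite.one_lt_card
  have hlt : Nat.card (ResidueField 𝒪) ^ r < Nat.card (ResidueField 𝒪) ^ (r + 1) :=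
    Nat.pow_lt_pow_right hk (Nat.lt_succ_self r)
  omega

end CardSide

end Fermat.Agent.S56
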