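/-
S56 / Tan (T2, matrix core): tangent cocycles of a deformation ring.

For `DQ : DeformationRingData 𝒪 ρbar 𝒟` and a basis `bbar` of `ρbar.V`: a matrix form `U.ρu` of the
universal deformation lifting `rbar = residualMat ρbar bbar`; every `𝒪`-algebra hom
`φ : DQ.R → k[ε]` gives the lift `s56tanRep U φ = U.ρu.map φ` of `rbar`, in normal form
`(1 + ε c_φ(g)) rbar(g)` with `c_φ = s56tanCocOf U φ`, and `DQ.ρ ⊗_φ k[ε]` has this matrix in a
suitable basis.  If `c_φ' - c_φ` is a coboundary then `φ' = φ` (universal property).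
(Helper names are prefixed `s56tan`.)
-/
import Mathlib
import Fermat.Agent.S56.Tan.DualHom
import Fermat.Agent.S56.Tan.CocycleDefs
import Fermat.Agent.S53.Functor
import Fermat.Agent.S53.Levels

set_option autoImplicit false

noncomputable section

namespace Fermat.Agent.S56

open IsLocalRing Fermat.Agent.S53

attribute [local instance] Fermat.Agent.S53.dualNumberAlgebra

/-- the structure map `𝒪 → k[ε]` is local -/
theorem s56tan_isLocalHom_algebraMap_dualNumber (𝒪 : Type) [CommRing 𝒪] [IsLocalRing 𝒪]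
    [Finite (ResidueField 𝒪)] : IsLocalHom (algebraMap 𝒪 (DualNumber (ResidueField 𝒪))) :=
  (isArtinianTestAlgebra_dualNumber (𝒪 := 𝒪)).isLocalHom

attribute [local instance] s56tan_isLocalHom_algebraMap_dualNumber

section Generalities

variable {A : Type} [CommRing A] [IsLocalRing A]

/-- a representation equivalent to `ofMat ρ` has matrix `ρ` in a suitable basis -/
theorem s56tan_exists_basis_of_isEquiv (ρA : GaloisRepAdic A) (ρ : MRep A) (h : ρ.IsAdicCont)
    (he : ρA.IsEquiv (ofMat ρ h)) :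
    ∃ b : Module.Basis (Fin 2) A ρA.V, ∀ g : GQ, LinearMap.toMatrix b b (ρA.ρ g) = ρ g := by
  obtain ⟨e⟩ := he
  let E : ρA.V ≃ₗ[A] (Fin 2 → A) := e.toLinearEquiv
  refine ⟨(Pi.basisFun A (Fin 2)).map E.symm, fun g => ?_⟩
  ext i j
  rw [LinearMap.toMatrix_apply, Module.Basis.map_apply, Module.Basis.map_repr,
    LinearEquiv.trans_apply, LinearEquiv.symm_symm, Pi.basisFun_repr, Pi.basisFun_apply]
  have h1 : E (ρA.ρ g (E.symm (Pi.single j 1))) = (ρ g).mulVec (E (E.symm (Pi.single j 1))) :=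
    e.map_apply g _
  rw [h1, LinearEquiv.apply_symm_apply, Matrix.mulVec_single_one]
  rfl

end Generalities

section Universal

variable {𝒪 : Type} [CommRing 𝒪] [IsDomain 𝒪] [IsDiscreteValuationRing 𝒪]
  [IsAdicComplete (maximalIdeal 𝒪) 𝒪] [Finite (ResidueField 𝒪)]
  {ρbar : ResidualGaloisRep (ResidueField 𝒪)}
  {𝒟 : ∀ ⦃A : Type⦄ [CommRing A] [IsLocalRing A] [Algebra 𝒪 A], GaloisRepAdic A → Prop}

/-- a matrix form of the universal deformation lifting the residual matrices -/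
structure S56TanUniv (DQ : GaloisRep.DeformationRingData 𝒪 ρbar 𝒟)
    (bbar : Module.Basis (Fin 2) (ResidueField 𝒪) ρbar.V) where
  /-- the universal matrix representation -/
  ρu : MRep DQ.R
  cont : ρu.IsAdicCont
  isEquiv : DQ.ρ.IsEquiv (ofMat ρu cont)
  isLift : IsLiftOf ρbar bbar (ResidueField.map (algebraMap 𝒪 DQ.R)) ρu

variable (DQ : GaloisRep.DeformationRingData 𝒪 ρbar 𝒟)
  (bbar : Module.Basis (Fin 2) (ResidueField 𝒪) ρbar.V)

theorem s56tanUniv_nonempty : Nonempty (S56TanUniv DQ bbar) := by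
  obtain ⟨ρu, hu, he, hl⟩ := exists_lift_ofMat_isEquiv ρbar bbar
    (ResidueField.map (algebraMap 𝒪 DQ.R)) DQ.ρ DQ.residual_isEquiv
  exact ⟨⟨ρu, hu, he, hl⟩⟩

variable {DQ bbar} (U : S56TanUniv DQ bbar)
  (φ : DQ.R →ₐ[𝒪] DualNumber (ResidueField 𝒪))

/-- the lift of `rbar` to the dual numbers attached to `φ` -/
def s56tanRep : MRep (DualNumber (ResidueField 𝒪)) := U.ρu.map (φ : DQ.R →+* DualNumber (ResidueField 𝒪))

theorem s56tanRep_apply (g : GQ) (i j : Fin 2) : s56tanRep U φ g i j = φ (U.ρu g i j) := rfl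

theorem s56tanRep_isLift : S56TanIsLift (residualMat ρbar bbar) (s56tanRep U φ) := by
  intro g
  ext i j
  rw [s56tanFst_apply, s56tanRep_apply]
  apply (ResidueField.map (algebraMap 𝒪 DQ.R)).injective
  rw [s56tan_map_fst DQ.residue_surjective φ, ← U.isLift g i j]

/-- the tangent cocycle of `φ` -/
def s56tanCocOf (g : GQ) : Matrix (Fin 2) (Fin 2) (ResidueField 𝒪) :=
  s56tanCoc (residualMat ρbar bbar) (s56tanRep U φ) g

theorem s56tanCocOf_isCocycle :
    S56TanIsCocycle (residualMat ρbar bbar) (s56tanCocOf U φ) :=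
  s56tanCoc_isCocycle (s56tanRep_isLift U φ)

/-- normal form: `ρ_φ(g) = (1 + ε c_φ(g)) rbar(g)` -/
theorem s56tanRep_eq_mk (g : GQ) :
    s56tanRep U φ g = s56tanMk (residualMat ρbar bbar g)
      (s56tanCocOf U φ g * residualMat ρbar bbar g) := by
  apply s56tan_matrix_ext
  · rw [s56tanFst_mk, s56tanRep_isLift U φ g]
  · rw [s56tanSnd_mk, s56tanCocOf, ← s56tanSnd_eq_coc_mul]

theorem s56tanRep_cont (hφ : IsLocalHom (φ : DQ.R →+* DualNumber (ResidueField 𝒪))) :
    (s56tanRep U φ).IsAdicCont := U.cont.map (φ : DQ.R →+* DualNumber (ResidueField 𝒪)) hφ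

/-- the base change of the universal deformation along `φ` is `ofMat` of `s56tanRep U φ` -/
theorem s56tan_baseChange_isEquiv
    (hφ : IsLocalHom (φ : DQ.R →+* DualNumber (ResidueField 𝒪))) :
    (DQ.ρ.baseChangeAlong (φ : DQ.R →+* DualNumber (ResidueField 𝒪)) hφ).IsEquiv
      (ofMat (s56tanRep U φ) (s56tanRep_cont U φ hφ)) := by
  obtain ⟨e⟩ := U.isEquiv
  obtain ⟨e'⟩ := ofMat_baseChangeAlong_isEquiv U.ρu U.cont (φ : DQ.R →+* DualNumber (ResidueField 𝒪)) hφ
  exact ⟨(e.baseChangeAlong (φ : DQ.R →+* DualNumber (ResidueField 𝒪)) hφ).trans e'⟩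

/-- `DQ.ρ ⊗_φ k[ε]` has the matrices `s56tanRep U φ` in a suitable basis -/
theorem s56tan_exists_basis
    (hφ : IsLocalHom (φ : DQ.R →+* DualNumber (ResidueField 𝒪))) :
    ∃ b' : Module.Basis (Fin 2) (DualNumber (ResidueField 𝒪))
        (DQ.ρ.baseChangeAlong (φ : DQ.R →+* DualNumber (ResidueField 𝒪)) hφ).V,
      ∀ g : GQ, LinearMap.toMatrix b' b' ((DQ.ρ.baseChangeAlong (φ : DQ.R →+* DualNumber (ResidueField 𝒪)) hφ).ρ g) =
        s56tanRep U φ g :=
  s56tan_exists_basis_of_isEquiv _ _ _ (s56tan_baseChange_isEquiv U φ hφ)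

/-- a non-surjective `φ` has zero tangent cocycle -/
theorem s56tanCocOf_eq_zero_of_not_surjective (h : ¬ Function.Surjective φ) (g : GQ) :
    s56tanCocOf U φ g = 0 := by
  have h0 : s56tanSnd (s56tanRep U φ g) = 0 := by
    ext i j
    rw [s56tanSnd_apply, s56tanRep_apply]
    exact s56tanFunctional_eq_zero_of_not_surjective DQ.residue_surjective φ h _
  rw [s56tanCocOf, s56tanCoc, h0, Matrix.zero_mul]

/-- `ρ_φ` lifts the residual matrices along `k → ResidueField k[ε]` -/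
theorem s56tanRep_isLiftOf :
    IsLiftOf ρbar bbar (ResidueField.map (algebraMap 𝒪 (DualNumber (ResidueField 𝒪))))
      (s56tanRep U φ) := by
  intro g i j
  have h1 : TrivSqZeroExt.fst (s56tanRep U φ g i j) = residualMat ρbar bbar g i j := by
    have := s56tanRep_isLift U φ g
    rw [← this, s56tanFst_apply]
  obtain ⟨o, ho⟩ := residue_surjective (R := 𝒪) (residualMat ρbar bbar g i j)
  rw [← ho, ResidueField.map_residue, s56tan_algebraMap_dualNumber, ho, ← sub_eq_zero, ← map_sub,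
    residue_eq_zero_iff, mem_maximalIdeal_dualNumber, TrivSqZeroExt.fst_sub,
    TrivSqZeroExt.fst_inl, h1, sub_self]

/-- the unit matrix `1 + ε Y` -/
def s56tanUnit (Y : Matrix (Fin 2) (Fin 2) (ResidueField 𝒪)) :
    (Matrix (Fin 2) (Fin 2) (DualNumber (ResidueField 𝒪)))ˣ where
  val := s56tanMk 1 Y
  inv := s56tanMk 1 (-Y)
  val_inv := by
    apply s56tan_matrix_ext
    · rw [s56tanFst_mul, s56tanFst_mk, s56tanFst_mk, s56tanFst_one, Matrix.one_mul]
    · rw [s56tanSnd_mul, s56tanFst_mk, s56tanFst_mk, s56tanSnd_mk, s56tanSnd_mk, s56tanSnd_one,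
        Matrix.one_mul, Matrix.mul_one, neg_add_cancel]
  inv_val := by
    apply s56tan_matrix_ext
    · rw [s56tanFst_mul, s56tanFst_mk, s56tanFst_mk, s56tanFst_one, Matrix.one_mul]
    · rw [s56tanSnd_mul, s56tanFst_mk, s56tanFst_mk, s56tanSnd_mk, s56tanSnd_mk, s56tanSnd_one,
        Matrix.one_mul, Matrix.mul_one, add_neg_cancel]

/-- **Injectivity.**  If `φ` is surjective, `DQ.ρ ⊗_φ k[ε]` is of type `𝒟`, and the tangent cocycle
of `φ'` differs from that of `φ` by a coboundary, then `φ' = φ`. -/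
theorem s56tan_eq_of_coboundary
    (hφ : IsLocalHom (φ : DQ.R →+* DualNumber (ResidueField 𝒪)))
    (hD : 𝒟 (DQ.ρ.baseChangeAlong (φ : DQ.R →+* DualNumber (ResidueField 𝒪)) hφ))
    (φ' : DQ.R →ₐ[𝒪] DualNumber (ResidueField 𝒪))
    (X : Matrix (Fin 2) (Fin 2) (ResidueField 𝒪))
    (hX : ∀ g : GQ, s56tanCocOf U φ' g = s56tanCocOf U φ g +
      (residualMat ρbar bbar g * X * residualMat ρbar bbar g⁻¹ - X)) : φ' = φ := by
  have hφ' : IsLocalHom (φ' : DQ.R →+* DualNumber (ResidueField 𝒪)) :=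
    s56tan_isLocalHom_dualNumber φ'
  have hT := isArtinianTestAlgebra_dualNumber (𝒪 := 𝒪)
  -- the two matrix lifts are conjugate
  have hconj : ∀ g : GQ,
      ((s56tanUnit (-X) : (Matrix (Fin 2) (Fin 2) (DualNumber (ResidueField 𝒪)))ˣ) :
          Matrix (Fin 2) (Fin 2) (DualNumber (ResidueField 𝒪))) * s56tanRep U φ g =
        s56tanRep U φ' g * (s56tanUnit (-X) : (Matrix (Fin 2) (Fin 2) (DualNumber (ResidueField 𝒪)))ˣ) := by
    intro g
    show s56tanMk 1 (-X) * s56tanRep U φ g = s56tanRep U φ' g * s56tanMk 1 (-X)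
    rw [s56tanRep_eq_mk U φ g, s56tanRep_eq_mk U φ' g, hX g]
    apply s56tan_matrix_ext
    · rw [s56tanFst_mul, s56tanFst_mul, s56tanFst_mk, s56tanFst_mk, s56tanFst_mk, Matrix.one_mul,
        Matrix.mul_one]
    · rw [s56tanSnd_mul, s56tanSnd_mul, s56tanFst_mk, s56tanFst_mk, s56tanFst_mk, s56tanSnd_mk,
        s56tanSnd_mk, s56tanSnd_mk, Matrix.one_mul, Matrix.mul_one]
      have hinv : residualMat ρbar bbar g⁻¹ * residualMat ρbar bbar g = 1 := s56tan_rbar_inv_mul g
      rw [Matrix.add_mul, Matrix.sub_mul, Matrix.mul_assoc _ (residualMat ρbar bbar g⁻¹), hinv,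
        Matrix.mul_one, Matrix.mul_neg, Matrix.neg_mul]
      abel
  have hE : (ofMat (s56tanRep U φ) (s56tanRep_cont U φ hφ)).IsEquiv
      (ofMat (s56tanRep U φ') (s56tanRep_cont U φ' hφ')) :=
    (ofMat_isEquiv_iff _ _ _ _).mpr ⟨s56tanUnit (-X), hconj⟩
  -- the residual representation of the target
  obtain ⟨e1⟩ := s56tan_baseChange_isEquiv U φ hφ
  obtain ⟨e1'⟩ := s56tan_baseChange_isEquiv U φ' hφ'
  obtain ⟨e2⟩ := hE
  obtain ⟨e3⟩ := residual_ofMat_isEquiv ρbar bbar
    (ResidueField.map (algebraMap 𝒪 (DualNumber (ResidueField 𝒪)))) (s56tanRep U φ)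
    (s56tanRep_cont U φ hφ) (s56tanRep_isLiftOf U φ)
  have hres : (DQ.ρ.baseChangeAlong (φ : DQ.R →+* DualNumber (ResidueField 𝒪)) hφ).residual.IsEquiv
      (ρbar.baseChangeAlong (ResidueField.map (algebraMap 𝒪 (DualNumber (ResidueField 𝒪))))) :=
    ⟨e1.residual.trans e3⟩
  obtain ⟨φ₀, -, huniq⟩ := DQ.universal (DualNumber (ResidueField 𝒪)) hT.residue_surjective
    (DQ.ρ.baseChangeAlong (φ : DQ.R →+* DualNumber (ResidueField 𝒪)) hφ) hD hres
  have h1 : φ = φ₀ := huniq φ ⟨hφ, ⟨GaloisRepAdic.Equiv.refl _⟩⟩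
  have h2 : φ' = φ₀ := huniq φ' ⟨hφ', ⟨(e1'.trans e2.symm).trans e1.symm⟩⟩
  rw [h1, h2]

/-- **Injectivity, both cases.**  If base change along surjective homs preserves the type `𝒟` and two
tangent cocycles differ by a coboundary then the homs are equal. -/
theorem s56tan_injective
    (hBC : ∀ (ψ : DQ.R →ₐ[𝒪] DualNumber (ResidueField 𝒪))
      (hψ : IsLocalHom (ψ : DQ.R →+* DualNumber (ResidueField 𝒪))), Function.Surjective ψ →
        𝒟 (DQ.ρ.baseChangeAlong (ψ : DQ.R →+* DualNumber (ResidueField 𝒪)) hψ))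
    (φ' : DQ.R →ₐ[𝒪] DualNumber (ResidueField 𝒪))
    (X : Matrix (Fin 2) (Fin 2) (ResidueField 𝒪))
    (hX : ∀ g : GQ, s56tanCocOf U φ' g = s56tanCocOf U φ g +
      (residualMat ρbar bbar g * X * residualMat ρbar bbar g⁻¹ - X)) : φ' = φ := by
  by_cases hs : Function.Surjective φ
  · exact s56tan_eq_of_coboundary U φ (s56tan_isLocalHom_dualNumber φ)
      (hBC φ (s56tan_isLocalHom_dualNumber φ) hs) φ' X hX
  by_cases hs' : Function.Surjective φ'
  · refine (s56tan_eq_of_coboundary U φ' (s56tan_isLocalHom_dualNumber φ')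
      (hBC φ' (s56tan_isLocalHom_dualNumber φ') hs') φ (-X) ?_).symm
    intro g
    rw [hX g]
    simp only [Matrix.mul_neg, Matrix.neg_mul]
    abel
  · exact s56tan_algHom_ext_of_functional DQ.residue_surjective φ' φ fun a => by
      rw [s56tanFunctional_eq_zero_of_not_surjective DQ.residue_surjective φ' hs',
        s56tanFunctional_eq_zero_of_not_surjective DQ.residue_surjective φ hs]

end Universal

end Fermat.Agent.S56
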