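/-
S56 / Tan (T2): lifts of `ρ̄` to the dual numbers in NORMAL FORM, basis-free coefficients.

`S56IsTanLift ρbar bbar ρ' z`: in the basis `bbar` of `ρ̄.V` and a suitable basis of `ρ'.V` the
representation `ρ'` over `k[ε]` is `(1 + ε z(g)) ρ̄(g)`, where `z : G_ℚ → End_k(ρ̄.V)`.
General facts: `z` is smooth for the levels unramified outside `S'` when `ρ'` is unramified outside
`S'`, and `z` has trace zero when `det ρ'` is cyclotomic.  (Helper names are prefixed `s56tan`.)
-/
import Mathlib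
import Fermat.Agent.S56.Tan.Cocycle
import Fermat.Agent.S56.Top.AdDefs

set_option autoImplicit false

noncomputable section

namespace Fermat.Agent.S56

open IsLocalRing Fermat.Agent.S53 Fermat.Agent.S55

local notation "GQ'" => AlgebraicClosure ℚ ≃ₐ[ℚ] AlgebraicClosure ℚ

section Galois

local instance s56tan_isAlgebraic : Algebra.IsAlgebraic ℚ (AlgebraicClosure ℚ) :=
  AlgebraicClosure.isAlgebraic ℚ
local instance s56tan_isAlgClosure : IsAlgClosure ℚ (AlgebraicClosure ℚ) :=
  ⟨inferInstance, inferInstance⟩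
local instance s56tan_normal : Normal ℚ (AlgebraicClosure ℚ) :=
  IsAlgClosure.normal ℚ (AlgebraicClosure ℚ)
local instance s56tan_isGalois : IsGalois ℚ (AlgebraicClosure ℚ) := inferInstance

/-- A subgroup containing the fixing subgroup of a finite subextension is the fixing subgroup of
a subfield of that subextension. -/
theorem s56tan_exists_field_of_le (N : Subgroup GQ')
    (F : IntermediateField ℚ (AlgebraicClosure ℚ))
    (hfd : FiniteDimensional ℚ F) (hFN : F.fixingSubgroup ≤ N) :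
    ∃ F' : IntermediateField ℚ (AlgebraicClosure ℚ), F' ≤ F ∧ N = F'.fixingSubgroup := by
  have hopen : IsOpen (N : Set GQ') :=
    Subgroup.isOpen_mono hFN (IntermediateField.fixingSubgroup_isOpen F)
  have hclosed : IsClosed (N : Set GQ') := OpenSubgroup.isClosed ⟨N, hopen⟩
  have h1 : (IntermediateField.fixedField N).fixingSubgroup = N :=
    InfiniteGalois.fixingSubgroup_fixedField ⟨N, hclosed⟩
  have h2 : IntermediateField.fixedField N ≤ F := by
    have h3 := InfiniteGalois.fixedField_fixingSubgroup F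
    rw [← h3]
    exact IntermediateField.fixedField_le hFN
  exact ⟨IntermediateField.fixedField N, h2, h1.symm⟩

/-- a function on `G_ℚ` which factors through a monoid hom with open kernel, trivial on the
inertia groups outside `S'`, is smooth for the levels unramified outside `S'` -/
theorem s56tan_isLC_of_factors {M : Type} {X : Type*} [Monoid M] (r : GQ' →* M)
    (hr : GaloisFactorsThroughFiniteLevel r) (S' : Finset Nat.Primes)
    (hur : ∀ q : Nat.Primes, q ∉ S' → ∀ A : ValuationSubring (AlgebraicClosure ℚ),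
      A.LiesOverPrime (q : ℕ) → ∀ σ ∈ A.inertiaSubgroupIn ℚ, r σ = 1)
    (c : GQ' → X) (hc : ∀ g h : GQ', r g = r h → c g = c h) :
    IsLC₁ (levelsS S') c := by
  obtain ⟨L, hL, h1⟩ := hr
  have hle : L.fixingSubgroup ≤ r.ker := by
    intro σ hσ
    rw [MonoidHom.mem_ker]
    exact h1 σ fun x hx => (IntermediateField.mem_fixingSubgroup_iff _ _).mp hσ x hx
  obtain ⟨F', hF'L, hF'⟩ := s56tan_exists_field_of_le r.ker L hL hle
  have hunr : F'.IsUnramifiedOutside S' := by
    refine ⟨?_, fun q hq A hA σ hσ => ?_⟩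
    · exact FiniteDimensional.of_injective (IntermediateField.inclusion hF'L).toLinearMap
        (IntermediateField.inclusion_injective hF'L)
    · rw [← hF', MonoidHom.mem_ker]
      exact hur q hq A hA σ hσ
  refine ⟨F'.fixingSubgroup, ⟨F', hunr, rfl⟩, fun g s hs => hc _ _ ?_⟩
  rw [← hF', MonoidHom.mem_ker] at hs
  rw [map_mul, hs, mul_one]

/-- every automorphism acts on the `p^n`-th roots of unity by a power -/
theorem s56tan_exists_cyclo_exp (p : ℕ) [Fact p.Prime] (n : ℕ) (σ : GQ') :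
    ∃ a : ℕ, ∀ μ : AlgebraicClosure ℚ, μ ^ p ^ n = 1 → σ μ = μ ^ a := by
  haveI : NeZero (p ^ n) := ⟨pow_ne_zero n (Fact.out : p.Prime).ne_zero⟩
  obtain ⟨m, hm⟩ := rootsOfUnity.integer_power_of_ringEquiv' (L := AlgebraicClosure ℚ) (p ^ n)
    (σ : AlgebraicClosure ℚ ≃+* AlgebraicClosure ℚ)
  refine ⟨(m % ((p ^ n : ℕ) : ℤ)).toNat, fun μ hμ => ?_⟩
  have hμ0 : μ ≠ 0 := by
    rintro rfl
    rw [zero_pow (NeZero.ne _)] at hμ
    exact zero_ne_one hμ
  have ht : Units.mk0 μ hμ0 ∈ rootsOfUnity (p ^ n) (AlgebraicClosure ℚ) := by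
    rw [mem_rootsOfUnity]
    ext
    simpa using hμ
  have h1 := hm _ ht
  have hpos : (0 : ℤ) ≤ m % ((p ^ n : ℕ) : ℤ) :=
    Int.emod_nonneg _ (by exact_mod_cast (NeZero.ne (p ^ n)))
  have h2 : (Units.mk0 μ hμ0) ^ m = (Units.mk0 μ hμ0) ^ (m % ((p ^ n : ℕ) : ℤ)).toNat := by
    have h3 : (Units.mk0 μ hμ0) ^ ((p ^ n : ℕ) : ℤ) = 1 := by
      rw [zpow_natCast]
      exact (mem_rootsOfUnity _ _).mp ht
    conv_lhs => rw [← Int.emod_add_mul_ediv m ((p ^ n : ℕ) : ℤ), zpow_add, zpow_mul, h3, one_zpow,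
      mul_one]
    conv_lhs => rw [← Int.toNat_of_nonneg hpos, zpow_natCast]
  rw [h2] at h1
  simpa using h1

end Galois

section Lift

variable {k : Type} [Field k]

/-- `ρ'` is, in the basis `bbar` of `ρ̄.V` and a suitable basis of `ρ'.V`, the lift
`(1 + ε z) ρ̄` of `ρ̄` -/
def S56IsTanLift (ρbar : ResidualGaloisRep k) (bbar : Module.Basis (Fin 2) k ρbar.V)
    (ρ' : GaloisRepAdic (DualNumber k)) (z : GQ' → Module.End k ρbar.V) : Prop :=
  ∃ b' : Module.Basis (Fin 2) (DualNumber k) ρ'.V, ∀ g : GQ',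
    LinearMap.toMatrix b' b' (ρ'.ρ g) =
      s56tanMk (LinearMap.toMatrix bbar bbar (ρbar.ρ g))
        (LinearMap.toMatrix bbar bbar (z g * ρbar.ρ g))

variable {ρbar : ResidualGaloisRep k} {bbar : Module.Basis (Fin 2) k ρbar.V}
  {ρ' : GaloisRepAdic (DualNumber k)} {z : GQ' → Module.End k ρbar.V}

theorem s56tan_rhobar_mul_inv (ρbar : ResidualGaloisRep k) (g : GQ') :
    ρbar.ρ g * ρbar.ρ g⁻¹ = 1 := by
  rw [← map_mul, mul_inv_cancel, map_one]

/-- `z` factors through `ρ'` -/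
theorem S56IsTanLift.eq_of_eq (h : S56IsTanLift ρbar bbar ρ' z) (g g' : GQ')
    (hg : ρ'.ρ g = ρ'.ρ g') : z g = z g' := by
  obtain ⟨b', hb'⟩ := h
  have h1 := hb' g
  rw [hg, hb' g'] at h1
  have hf := congrArg s56tanFst h1
  have hs := congrArg s56tanSnd h1
  rw [s56tanFst_mk, s56tanFst_mk] at hf
  rw [s56tanSnd_mk, s56tanSnd_mk] at hs
  have hρ : ρbar.ρ g = ρbar.ρ g' := (LinearMap.toMatrix bbar bbar).injective hf.symm
  have hz : z g * ρbar.ρ g = z g' * ρbar.ρ g' := (LinearMap.toMatrix bbar bbar).injective hs.symm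
  calc z g = z g * ρbar.ρ g * ρbar.ρ g⁻¹ := by
        rw [mul_assoc, s56tan_rhobar_mul_inv, mul_one]
    _ = z g' * ρbar.ρ g' * ρbar.ρ g'⁻¹ := by
        rw [hz]
        have : ρbar.ρ g⁻¹ = ρbar.ρ g'⁻¹ := by
          calc ρbar.ρ g⁻¹ = ρbar.ρ g⁻¹ * (ρbar.ρ g' * ρbar.ρ g'⁻¹) := by
                rw [s56tan_rhobar_mul_inv, mul_one]
            _ = (ρbar.ρ g⁻¹ * ρbar.ρ g) * ρbar.ρ g'⁻¹ := by rw [hρ, mul_assoc]
            _ = ρbar.ρ g'⁻¹ := by
                rw [← map_mul, inv_mul_cancel, map_one, one_mul]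
        rw [this]
    _ = z g' := by rw [mul_assoc, s56tan_rhobar_mul_inv, mul_one]

/-- a representation over the dual numbers factors through a finite level -/
theorem s56tan_factors_dualNumber (ρ' : GaloisRepAdic (DualNumber k)) :
    GaloisFactorsThroughFiniteLevel ρ'.ρ := by
  obtain ⟨L, hL, h1⟩ := ρ'.isAdicContinuous 2
  refine ⟨L, hL, fun σ hσ => LinearMap.ext fun v => ?_⟩
  have h2 := h1 σ hσ v
  have hsq : maximalIdeal (DualNumber k) ^ 2 = ⊥ := by
    rw [eq_bot_iff, pow_two, Ideal.mul_le]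
    intro x hx y hy
    rw [mem_maximalIdeal_dualNumber] at hx hy
    rw [Ideal.mem_bot]
    ext
    · simp [hx]
    · simp [hx, hy]
  rw [hsq, Submodule.bot_smul, Submodule.mem_bot, sub_eq_zero] at h2
  rw [h2, Module.End.one_apply]

/-- **smoothness.** if `ρ'` is unramified outside `S'` then `z` is level-constant for the levels
unramified outside `S'` -/
theorem S56IsTanLift.isLC (h : S56IsTanLift ρbar bbar ρ' z) (S' : Finset Nat.Primes)
    (hur : ∀ q : Nat.Primes, q ∉ S' → ρ'.IsUnramifiedAt (q : ℕ)) :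
    IsLC₁ (levelsS S') z :=
  s56tan_isLC_of_factors ρ'.ρ (s56tan_factors_dualNumber ρ') S'
    (fun q hq A hA σ hσ => hur q hq A hA σ hσ) z (fun g g' hg => h.eq_of_eq g g' hg)

/-- the `ε`-part of the determinant of `M₀ + ε C M₀` -/
theorem s56tan_snd_det_mk (R C : Matrix (Fin 2) (Fin 2) k) :
    TrivSqZeroExt.snd (s56tanMk R (C * R)).det = C.trace * R.det := by
  rw [Matrix.det_fin_two, Matrix.det_fin_two, Matrix.trace_fin_two]
  simp only [s56tanMk, Matrix.of_apply, Matrix.mul_apply, Fin.sum_univ_two, TrivSqZeroExt.snd_sub,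
    TrivSqZeroExt.snd_mul, TrivSqZeroExt.fst_add, TrivSqZeroExt.fst_inl, TrivSqZeroExt.fst_inr,
    TrivSqZeroExt.snd_add, TrivSqZeroExt.snd_inl, TrivSqZeroExt.snd_inr, add_zero, zero_add,
    smul_eq_mul, MulOpposite.smul_eq_mul_unop, MulOpposite.unop_op]
  ring

/-- **trace zero.** if `det ρ'` is cyclotomic then `z` takes values in trace-zero endomorphisms -/
theorem S56IsTanLift.trace_eq_zero (p : ℕ) [Fact p.Prime] [CharP k p]
    (h : S56IsTanLift ρbar bbar ρ' z) (hdet : ρ'.DetIsCyclotomic p) (g : GQ') :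
    LinearMap.trace k ρbar.V (z g) = 0 := by
  obtain ⟨b', hb'⟩ := h
  obtain ⟨a, ha⟩ := s56tan_exists_cyclo_exp p 1 g
  have h1 := hdet.2 1 g a ha
  have hp0 : (((p ^ 1 : ℕ) : ℕ) : DualNumber k) = 0 := by
    rw [pow_one, ← map_natCast (algebraMap k (DualNumber k)), CharP.cast_eq_zero, map_zero]
  rw [hp0, Ideal.span_singleton_zero, Ideal.mem_bot, sub_eq_zero] at h1
  have h2 : (LinearMap.toMatrix b' b' (ρ'.ρ g)).det = (a : DualNumber k) := by
    rw [LinearMap.det_toMatrix, h1]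
  rw [hb' g, LinearMap.toMatrix_mul] at h2
  have h3 := congrArg TrivSqZeroExt.snd h2
  rw [s56tan_snd_det_mk] at h3
  have h4 : TrivSqZeroExt.snd ((a : ℕ) : DualNumber k) = 0 := by
    rw [← map_natCast (algebraMap k (DualNumber k))]
    rfl
  rw [h4] at h3
  have hunit : (LinearMap.toMatrix bbar bbar (ρbar.ρ g)).det ≠ 0 := by
    intro h0
    have h5 : LinearMap.toMatrix bbar bbar (ρbar.ρ g) * LinearMap.toMatrix bbar bbar (ρbar.ρ g⁻¹) =
        1 := by
      rw [← LinearMap.toMatrix_mul, s56tan_rhobar_mul_inv, LinearMap.toMatrix_one]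
    have h6 := congrArg Matrix.det h5
    rw [Matrix.det_mul, h0, zero_mul, Matrix.det_one] at h6
    exact zero_ne_one h6
  rw [LinearMap.trace_eq_matrix_trace k bbar]
  exact (mul_eq_zero.mp h3).resolve_right hunit

end Lift

end Fermat.Agent.S56
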