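/-
S56 / Tan: the local deformation conditions of the Prelude are stable under base change along local
homomorphisms (for the flat condition: along surjective local homomorphisms).
Helper names are prefixed `s56bc`.
-/
import Mathlib
import Fermat.Prelude.Def_GaloisRep_StrictOrdinary
import Fermat.Prelude.Def_GaloisRep_Flat

set_option autoImplicit false

open scoped TensorProduct

namespace Fermat.Agent.S56

open IsLocalRing

variable {A B : Type} [CommRing A] [IsLocalRing A] [CommRing B] [IsLocalRing B]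

theorem s56bc_map_mem_maximalIdeal (φ : A →+* B) (hφ : IsLocalHom φ) {a : A}
    (ha : a ∈ maximalIdeal A) : φ a ∈ maximalIdeal B :=
  haveI := hφ
  map_nonunit φ a ha

theorem s56bc_ρ_apply (φ : A →+* B) (hφ : IsLocalHom φ) (ρ : GaloisRepAdic A)
    (σ : AlgebraicClosure ℚ ≃ₐ[ℚ] AlgebraicClosure ℚ) :
    letI : Algebra A B := φ.toAlgebra
    (ρ.baseChangeAlong φ hφ).ρ σ = (ρ.ρ σ).baseChange B := rfl

/-- unramifiedness is stable under base change -/
theorem s56bc_isUnramifiedAt (φ : A →+* B) (hφ : IsLocalHom φ) (ρ : GaloisRepAdic A) (q : ℕ)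
    (h : ρ.IsUnramifiedAt q) : (ρ.baseChangeAlong φ hφ).IsUnramifiedAt q := by
  letI : Algebra A B := φ.toAlgebra
  intro P hP σ hσ
  show (ρ.ρ σ).baseChange B = 1
  rw [h P hP σ hσ, LinearMap.baseChange_one]

/-- unipotent inertia is stable under base change -/
theorem s56bc_isUnipotentOnInertiaAt (φ : A →+* B) (hφ : IsLocalHom φ) (ρ : GaloisRepAdic A)
    (q : ℕ) (h : ρ.IsUnipotentOnInertiaAt q) :
    (ρ.baseChangeAlong φ hφ).IsUnipotentOnInertiaAt q := by
  letI : Algebra A B := φ.toAlgebra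
  intro P hP σ hσ
  show LinearMap.charpoly ((ρ.ρ σ).baseChange B) = _
  rw [LinearMap.charpoly_baseChange, h P hP σ hσ]
  simp

/-- the determinant condition is stable under base change -/
theorem s56bc_detIsCyclotomic (φ : A →+* B) (hφ : IsLocalHom φ) (ρ : GaloisRepAdic A) (p : ℕ)
    (h : ρ.DetIsCyclotomic p) : (ρ.baseChangeAlong φ hφ).DetIsCyclotomic p := by
  letI : Algebra A B := φ.toAlgebra
  refine ⟨?_, ?_⟩
  · have := s56bc_map_mem_maximalIdeal φ hφ h.1
    simpa using this
  · intro n σ a ha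
    show LinearMap.det ((ρ.ρ σ).baseChange B) - (a : B) ∈ _
    rw [LinearMap.det_baseChange]
    have h1 := h.2 n σ a ha
    have h2 : algebraMap A B (LinearMap.det (ρ.ρ σ)) - (a : B) =
        φ (LinearMap.det (ρ.ρ σ) - (a : A)) := by
      rw [map_sub, map_natCast]; rfl
    rw [h2]
    obtain ⟨c, hc⟩ := Ideal.mem_span_singleton'.mp h1
    rw [← hc, map_mul, map_natCast]
    exact Ideal.mul_mem_left _ _ (Ideal.mem_span_singleton_self _)

section Core

variable {A' B' : Type} [CommRing A'] [CommRing B'] [Algebra A' B'] {V : Type} [AddCommGroup V]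
  [Module A' V] (b : Module.Basis (Fin 2) A' V)

/-- elements `β ⊗ w` with `w` in the line `A ∙ b 0` lie in the line `B ∙ (1 ⊗ b 0)` -/
theorem s56bc_tmul_mem (β : B') (w : V) (hw : w ∈ (A' ∙ b 0 : Submodule A' V)) :
    β ⊗ₜ[A'] w ∈ (B' ∙ Algebra.TensorProduct.basis B' b 0 : Submodule B' (B' ⊗[A'] V)) := by
  rw [Submodule.mem_span_singleton] at hw
  obtain ⟨a, rfl⟩ := hw
  rw [Submodule.mem_span_singleton]
  refine ⟨β * algebraMap A' B' a, ?_⟩
  rw [Algebra.TensorProduct.basis_apply, TensorProduct.smul_tmul', smul_eq_mul, mul_one,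
    TensorProduct.tmul_smul, TensorProduct.smul_tmul', Algebra.smul_def, mul_comm]

theorem s56bc_line_stable (f : V →ₗ[A'] V)
    (hf : ∀ v ∈ (A' ∙ b 0 : Submodule A' V), f v ∈ (A' ∙ b 0 : Submodule A' V))
    (v : B' ⊗[A'] V)
    (hv : v ∈ (B' ∙ Algebra.TensorProduct.basis B' b 0 : Submodule B' (B' ⊗[A'] V))) :
    f.baseChange B' v ∈
      (B' ∙ Algebra.TensorProduct.basis B' b 0 : Submodule B' (B' ⊗[A'] V)) := by
  rw [Submodule.mem_span_singleton] at hv
  obtain ⟨β, rfl⟩ := hv
  rw [map_smul, Algebra.TensorProduct.basis_apply, LinearMap.baseChange_tmul]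
  have h1 := s56bc_tmul_mem (B' := B') b 1 _ (hf _ (Submodule.mem_span_singleton_self _))
  rw [Algebra.TensorProduct.basis_apply] at h1
  exact Submodule.smul_mem _ _ h1

theorem s56bc_sub_smul_mem (f : V →ₗ[A'] V) (z : A')
    (hf : ∀ v : V, f v - z • v ∈ (A' ∙ b 0 : Submodule A' V)) (v : B' ⊗[A'] V) :
    f.baseChange B' v - algebraMap A' B' z • v ∈
      (B' ∙ Algebra.TensorProduct.basis B' b 0 : Submodule B' (B' ⊗[A'] V)) := by
  induction v using TensorProduct.induction_on with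
  | zero => simp
  | tmul β w =>
    have : algebraMap A' B' z • (β ⊗ₜ[A'] w) = β ⊗ₜ[A'] (z • w) := by
      rw [TensorProduct.tmul_smul, TensorProduct.smul_tmul', TensorProduct.smul_tmul',
        smul_eq_mul, Algebra.smul_def]
    rw [LinearMap.baseChange_tmul, this, ← TensorProduct.tmul_sub]
    exact s56bc_tmul_mem b β _ (hf w)
  | add x y hx hy =>
    rw [map_add, smul_add, add_sub_add_comm]
    exact Submodule.add_mem _ hx hy

theorem s56bc_eq_smul (f : V →ₗ[A'] V) (x : A')
    (hf : ∀ w ∈ (A' ∙ b 0 : Submodule A' V), f w = x • w) (w : B' ⊗[A'] V)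
    (hw : w ∈ (B' ∙ Algebra.TensorProduct.basis B' b 0 : Submodule B' (B' ⊗[A'] V))) :
    f.baseChange B' w = algebraMap A' B' x • w := by
  rw [Submodule.mem_span_singleton] at hw
  obtain ⟨β, rfl⟩ := hw
  rw [map_smul, Algebra.TensorProduct.basis_apply, LinearMap.baseChange_tmul,
    hf (b 0) (Submodule.mem_span_singleton_self _), TensorProduct.tmul_smul, smul_comm,
    algebraMap_smul]

end Core

/-- strict ordinarity is stable under base change -/
theorem s56bc_isStrictOrdinaryAt (φ : A →+* B) (hφ : IsLocalHom φ) (ρ : GaloisRepAdic A) (p : ℕ)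
    (h : ρ.IsStrictOrdinaryAt p) : (ρ.baseChangeAlong φ hφ).IsStrictOrdinaryAt p := by
  letI : Algebra A B := φ.toAlgebra
  have halg : ∀ a : A, algebraMap A B a = φ a := fun _ => rfl
  refine ⟨?_, ?_⟩
  · have := s56bc_map_mem_maximalIdeal φ hφ h.1
    simpa using this
  intro P hP
  obtain ⟨L, ⟨b, hLb⟩, hD, hI, hxz⟩ := h.2 P hP
  subst hLb
  refine ⟨(B ∙ Algebra.TensorProduct.basis B b 0 : Submodule B (B ⊗[A] ρ.V)),
    ⟨Algebra.TensorProduct.basis B b, rfl⟩, ?_, ?_, ?_⟩
  · intro σ hσ v hv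
    exact s56bc_line_stable b (ρ.ρ σ) (hD σ hσ) v hv
  · intro σ hσ v
    have := s56bc_sub_smul_mem (B' := B) b (ρ.ρ σ) 1 (fun v => by simpa using hI σ hσ v) v
    rw [map_one, one_smul] at this
    exact this
  · intro σ hσ
    obtain ⟨x, z, hx, hz, hcyc⟩ := hxz σ hσ
    refine ⟨φ x, φ z, ?_, ?_, ?_⟩
    · intro w hw
      exact s56bc_eq_smul b (ρ.ρ σ) x hx w hw
    · intro v
      exact s56bc_sub_smul_mem b (ρ.ρ σ) z hz v
    · intro n a ha
      have h1 := hcyc n a ha
      have h2 : φ x - (a : B) * φ z = φ (x - (a : A) * z) := by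
        rw [map_sub, map_mul, map_natCast]
      rw [h2]
      obtain ⟨c, hc⟩ := Ideal.mem_span_singleton'.mp h1
      rw [← hc, map_mul, map_natCast]
      exact Ideal.mul_mem_left _ _ (Ideal.mem_span_singleton_self _)

section FlatCore

variable {A' B' : Type} [CommRing A'] [CommRing B'] [Algebra A' B'] {V : Type} [AddCommGroup V]
  [Module A' V]

/-- membership in `I • ⊤` of a free module is tested on coordinates -/
theorem s56bc_mem_smul_top_iff {ι : Type} [Fintype ι] (I : Ideal A') (b : Module.Basis ι A' V)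
    (x : V) : x ∈ I • (⊤ : Submodule A' V) ↔ ∀ i, b.repr x i ∈ I := by
  constructor
  · intro hx i
    refine Submodule.smul_induction_on (p := fun x => b.repr x i ∈ I) hx ?_ ?_
    · intro a ha v _
      rw [map_smul, Finsupp.smul_apply, smul_eq_mul]
      exact Ideal.mul_mem_right _ _ ha
    · intro x y hx hy
      rw [map_add, Finsupp.add_apply]
      exact Ideal.add_mem _ hx hy
  · intro h
    rw [← b.sum_repr x]
    exact Submodule.sum_mem _ fun i _ => Submodule.smul_mem_smul (h i) Submodule.mem_top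

/-- for a surjective base change every element of `B ⊗ V` is of the form `1 ⊗ v` -/
theorem s56bc_exists_one_tmul (hsurj : Function.Surjective (algebraMap A' B'))
    (x : B' ⊗[A'] V) : ∃ v : V, x = (1 : B') ⊗ₜ[A'] v := by
  induction x using TensorProduct.induction_on with
  | zero => exact ⟨0, by simp⟩
  | tmul β w =>
    obtain ⟨a, rfl⟩ := hsurj β
    refine ⟨a • w, ?_⟩
    rw [TensorProduct.tmul_smul, TensorProduct.smul_tmul', Algebra.smul_def, mul_one]
  | add x y hx hy =>
    obtain ⟨v, rfl⟩ := hx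
    obtain ⟨w, rfl⟩ := hy
    exact ⟨v + w, by rw [TensorProduct.tmul_add]⟩

/-- `V / J V ≃ (B ⊗ V) / I (B ⊗ V)` for `J` the preimage of `I` under a surjection `A → B`,
`V` finite free -/
theorem s56bc_exists_quotEquiv [Module.Free A' V] [Module.Finite A' V]
    (hsurj : Function.Surjective (algebraMap A' B')) (I : Ideal B') :
    ∃ θ : (V ⧸ (I.comap (algebraMap A' B')) • (⊤ : Submodule A' V)) ≃+
        ((B' ⊗[A'] V) ⧸ I • (⊤ : Submodule B' (B' ⊗[A'] V))),
      ∀ v : V, θ (Submodule.Quotient.mk v) = Submodule.Quotient.mk ((1 : B') ⊗ₜ[A'] v) := by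
  set J : Ideal A' := I.comap (algebraMap A' B') with hJ
  let b := Module.Free.chooseBasis A' V
  haveI : Fintype (Module.Free.ChooseBasisIndex A' V) := Module.Free.ChooseBasisIndex.fintype A' V
  let b' := Algebra.TensorProduct.basis B' b
  -- the additive map `v ↦ [1 ⊗ v]`
  let g : V →+ ((B' ⊗[A'] V) ⧸ I • (⊤ : Submodule B' (B' ⊗[A'] V))) :=
    { toFun := fun v => Submodule.Quotient.mk ((1 : B') ⊗ₜ[A'] v)
      map_zero' := by simp
      map_add' := fun v w => by rw [TensorProduct.tmul_add, Submodule.Quotient.mk_add] }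
  have hg : ∀ v, g v = Submodule.Quotient.mk ((1 : B') ⊗ₜ[A'] v) := fun _ => rfl
  have hker : ∀ v : V, g v = 0 ↔ v ∈ J • (⊤ : Submodule A' V) := by
    intro v
    rw [hg, Submodule.Quotient.mk_eq_zero, s56bc_mem_smul_top_iff I b',
      s56bc_mem_smul_top_iff J b]
    refine forall_congr' fun i => ?_
    have : b'.repr ((1 : B') ⊗ₜ[A'] v) i = algebraMap A' B' (b.repr v i) := by
      simp [b']
    rw [this, hJ, Ideal.mem_comap]
  have hgsurj : Function.Surjective g := by
    intro y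
    obtain ⟨x, rfl⟩ := Submodule.Quotient.mk_surjective _ y
    obtain ⟨v, rfl⟩ := s56bc_exists_one_tmul hsurj x
    exact ⟨v, rfl⟩
  -- descend to the quotient
  let g' : (V ⧸ J • (⊤ : Submodule A' V)) →+
      ((B' ⊗[A'] V) ⧸ I • (⊤ : Submodule B' (B' ⊗[A'] V))) :=
    QuotientAddGroup.lift (J • (⊤ : Submodule A' V)).toAddSubgroup g
      (fun v hv => (hker v).mpr hv)
  have hg' : ∀ v : V, g' (Submodule.Quotient.mk v) = g v := fun v => rfl
  have hinj : Function.Injective g' := by
    rw [injective_iff_map_eq_zero]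
    intro x hx
    obtain ⟨v, rfl⟩ := Submodule.Quotient.mk_surjective _ x
    rw [hg'] at hx
    rw [Submodule.Quotient.mk_eq_zero]
    exact (hker v).mp hx
  have hsurj' : Function.Surjective g' := by
    intro y
    obtain ⟨v, rfl⟩ := hgsurj y
    exact ⟨Submodule.Quotient.mk v, hg' v⟩
  exact ⟨AddEquiv.ofBijective g' ⟨hinj, hsurj'⟩, fun v => rfl⟩

end FlatCore

/-- flatness is stable under base change along a surjective local homomorphism -/
theorem s56bc_isFlatAt (φ : A →+* B) (hφ : IsLocalHom φ) (hsurj : Function.Surjective φ)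
    (ρ : GaloisRepAdic A) (p : ℕ) (h : ρ.IsFlatAt p) :
    (ρ.baseChangeAlong φ hφ).IsFlatAt p := by
  letI : Algebra A B := φ.toAlgebra
  have halg : ∀ a : A, algebraMap A B a = φ a := fun _ => rfl
  have hsurj' : Function.Surjective (algebraMap A B) := hsurj
  obtain ⟨hfinres, hH⟩ := h
  refine ⟨?_, ?_⟩
  · haveI := hfinres
    haveI := hφ
    refine Finite.of_surjective (ResidueField.map φ) ?_
    intro x
    obtain ⟨b, rfl⟩ := residue_surjective x
    obtain ⟨a, rfl⟩ := hsurj b
    exact ⟨residue A a, ResidueField.map_residue φ a⟩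
  · intro I hI
    have hJfin : Finite (A ⧸ I.comap φ) := by
      haveI := hI
      exact Finite.of_injective (Ideal.quotientMap I φ le_rfl)
        (Ideal.quotientMap_injective' le_rfl)
    obtain ⟨H, i1, i2, hfin, hflat, hco, e, he_mul, he_eq⟩ := hH (I.comap φ) hJfin
    obtain ⟨θ, hθ⟩ := s56bc_exists_quotEquiv (A' := A) (B' := B) (V := ρ.V) hsurj' I
    refine ⟨H, i1, i2, hfin, hflat, hco, e.trans θ.toEquiv, ?_, ?_⟩
    · intro f g
      show θ (e (f * g)) = θ (e f) + θ (e g)
      rw [he_mul, map_add]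
    · intro σ f g hfg
      show θ (e g) = (ρ.baseChangeAlong φ hφ).levelAction I σ (θ (e f))
      rw [he_eq σ f g hfg]
      obtain ⟨v, hv⟩ := Submodule.Quotient.mk_surjective _ (e f)
      rw [← hv]
      have h1 : ρ.levelAction (I.comap φ) σ (Submodule.Quotient.mk v) =
          Submodule.Quotient.mk (ρ.ρ σ v) := rfl
      rw [h1, hθ, hθ]
      rfl

section Conditions

variable (𝒪 : Type) [CommRing 𝒪] [Algebra 𝒪 A] [Algebra 𝒪 B]

/-- the strict-ordinary deformation condition of S56 is stable under base change -/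
theorem s56bc_cond_strictOrdinary (φ : A →+* B) (hφ : IsLocalHom φ) (p : ℕ) (T Smin : Finset ℕ)
    (ρ : GaloisRepAdic A)
    (h : GaloisRep.strictOrdinaryCondition 𝒪 p T ρ ∧
      ∀ q ∈ Smin, q.Prime → q ≠ p → ρ.IsUnipotentOnInertiaAt q) :
    GaloisRep.strictOrdinaryCondition 𝒪 p T (ρ.baseChangeAlong φ hφ) ∧
      ∀ q ∈ Smin, q.Prime → q ≠ p → (ρ.baseChangeAlong φ hφ).IsUnipotentOnInertiaAt q :=
  ⟨⟨s56bc_detIsCyclotomic φ hφ ρ p h.1.1, s56bc_isStrictOrdinaryAt φ hφ ρ p h.1.2.1,
      fun q hq hqT => s56bc_isUnramifiedAt φ hφ ρ q (h.1.2.2 q hq hqT)⟩,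
    fun q hq hqp hne => s56bc_isUnipotentOnInertiaAt φ hφ ρ q (h.2 q hq hqp hne)⟩

/-- the flat deformation condition of S56 is stable under surjective base change -/
theorem s56bc_cond_flat (φ : A →+* B) (hφ : IsLocalHom φ) (hsurj : Function.Surjective φ)
    (p : ℕ) (T Smin : Finset ℕ) (ρ : GaloisRepAdic A)
    (h : GaloisRep.flatCondition 𝒪 p T ρ ∧
      ∀ q ∈ Smin, q.Prime → q ≠ p → ρ.IsUnipotentOnInertiaAt q) :
    GaloisRep.flatCondition 𝒪 p T (ρ.baseChangeAlong φ hφ) ∧
      ∀ q ∈ Smin, q.Prime → q ≠ p → (ρ.baseChangeAlong φ hφ).IsUnipotentOnInertiaAt q :=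
  ⟨⟨s56bc_detIsCyclotomic φ hφ ρ p h.1.1, s56bc_isFlatAt φ hφ hsurj ρ p h.1.2.1,
      fun q hq hqT => s56bc_isUnramifiedAt φ hφ ρ q (h.1.2.2 q hq hqT)⟩,
    fun q hq hqp hne => s56bc_isUnipotentOnInertiaAt φ hφ ρ q (h.2 q hq hqp hne)⟩

end Conditions

end Fermat.Agent.S56
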