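/-
S56 / Tan (T2): the tangent space of a deformation ring as classes of smooth `1`-cocycles with
values in `ad⁰ρ̄` (the S55 Top language, coefficients `S56Ad0 ρbar`).

`s56tan_exists_family`: for `DQ : DeformationRingData 𝒪 ρbar 𝒟` such that `𝒟` is stable under base
change along surjections `DQ.R → k[ε]` and implies "cyclotomic determinant" and "unramified outside
`S'`": a map `f` from `Hom_𝒪(DQ.R, k[ε])` to the smooth `1`-cocycles of `G_ℚ` in `ad⁰ρ̄` (levels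
unramified outside `S'`), injective modulo coboundaries, such that every `f φ` is zero or the
cocycle of a lift of type `𝒟` in normal form `(1 + ε f φ) ρ̄`.  (Helper names are prefixed `s56tan`.)
-/
import Mathlib
import Fermat.Agent.S56.Tan.Lift
import Fermat.Agent.S56.Top.Defs

set_option autoImplicit false

noncomputable section

namespace Fermat.Agent.S56

open IsLocalRing Fermat.Agent.S53 Fermat.Agent.S55 ExtCitation

local notation "GQ'" => AlgebraicClosure ℚ ≃ₐ[ℚ] AlgebraicClosure ℚ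

attribute [local instance] Fermat.Agent.S53.dualNumberAlgebra

section Main

variable {𝒪 : Type} [CommRing 𝒪] [IsDomain 𝒪] [IsDiscreteValuationRing 𝒪]
  [IsAdicComplete (maximalIdeal 𝒪) 𝒪] [Finite (ResidueField 𝒪)]
  (p : ℕ) [Fact p.Prime] [CharP (ResidueField 𝒪) p]
  {ρbar : ResidualGaloisRep (ResidueField 𝒪)}
  {𝒟 : ∀ ⦃A : Type⦄ [CommRing A] [IsLocalRing A] [Algebra 𝒪 A], GaloisRepAdic A → Prop}

/-- **T2.** the tangent vectors of a deformation ring as smooth cocycles in `ad⁰ρ̄`. -/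
theorem s56tan_exists_family
    (DQ : GaloisRep.DeformationRingData 𝒪 ρbar 𝒟)
    (bbar : Module.Basis (Fin 2) (ResidueField 𝒪) ρbar.V) (S' : Finset Nat.Primes)
    (hBC : ∀ (ψ : DQ.R →ₐ[𝒪] DualNumber (ResidueField 𝒪))
      (hψ : IsLocalHom (ψ : DQ.R →+* DualNumber (ResidueField 𝒪))), Function.Surjective ψ →
        𝒟 (DQ.ρ.baseChangeAlong (ψ : DQ.R →+* DualNumber (ResidueField 𝒪)) hψ))
    (hD : ∀ ρ' : GaloisRepAdic (DualNumber (ResidueField 𝒪)), 𝒟 ρ' →
      ρ'.DetIsCyclotomic p ∧ ∀ q : Nat.Primes, q ∉ S' → ρ'.IsUnramifiedAt (q : ℕ)) :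
    ∃ f : (DQ.R →ₐ[𝒪] DualNumber (ResidueField 𝒪)) → (GQ' → S56Ad0 ρbar),
      (∀ φ, f φ ∈ smZ1 (levelsS S') (s56Ad0 p ρbar)) ∧
      (∀ φ φ', f φ' - f φ ∈ smB1 (s56Ad0 p ρbar) → φ' = φ) ∧
      ∀ φ, f φ = 0 ∨ ∃ ρ' : GaloisRepAdic (DualNumber (ResidueField 𝒪)), 𝒟 ρ' ∧
        S56IsTanLift ρbar bbar ρ' (fun g => (f φ g).val) := by
  obtain ⟨U⟩ := s56tanUniv_nonempty DQ bbar
  -- the cocycles with values in endomorphisms
  let zE : (DQ.R →ₐ[𝒪] DualNumber (ResidueField 𝒪)) → GQ' → Module.End (ResidueField 𝒪) ρbar.V :=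
    fun φ g => Matrix.toLin bbar bbar (s56tanCocOf U φ g)
  have hrbar : ∀ g : GQ', Matrix.toLin bbar bbar (residualMat ρbar bbar g) = ρbar.ρ g :=
    fun g => Matrix.toLin_toMatrix bbar bbar (ρbar.ρ g)
  have hlift : ∀ (φ : DQ.R →ₐ[𝒪] DualNumber (ResidueField 𝒪))
      (hφ : IsLocalHom (φ : DQ.R →+* DualNumber (ResidueField 𝒪))),
      S56IsTanLift ρbar bbar
        (DQ.ρ.baseChangeAlong (φ : DQ.R →+* DualNumber (ResidueField 𝒪)) hφ) (zE φ) := by
    intro φ hφ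
    obtain ⟨b', hb'⟩ := s56tan_exists_basis U φ hφ
    refine ⟨b', fun g => ?_⟩
    rw [hb' g, s56tanRep_eq_mk U φ g, LinearMap.toMatrix_mul, LinearMap.toMatrix_toLin]
    rfl
  have hzero : ∀ φ : DQ.R →ₐ[𝒪] DualNumber (ResidueField 𝒪), ¬ Function.Surjective φ →
      ∀ g, zE φ g = 0 := by
    intro φ hs g
    show Matrix.toLin bbar bbar (s56tanCocOf U φ g) = 0
    rw [s56tanCocOf_eq_zero_of_not_surjective U φ hs g, map_zero]
  have htr : ∀ (φ : DQ.R →ₐ[𝒪] DualNumber (ResidueField 𝒪)) (g : GQ'),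
      LinearMap.trace (ResidueField 𝒪) ρbar.V (zE φ g) = 0 := by
    intro φ g
    by_cases hs : Function.Surjective φ
    · have hφ := s56tan_isLocalHom_dualNumber φ
      exact (hlift φ hφ).trace_eq_zero p (hD _ (hBC φ hφ hs)).1 g
    · rw [hzero φ hs g, map_zero]
  let f : (DQ.R →ₐ[𝒪] DualNumber (ResidueField 𝒪)) → GQ' → S56Ad0 ρbar :=
    fun φ g => S56Ad0.mk (zE φ g) (htr φ g)
  have hfval : ∀ φ g, (f φ g).val = zE φ g := fun φ g => rfl
  refine ⟨f, ?_, ?_, ?_⟩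
  · intro φ
    rw [mem_smZ1]
    constructor
    · -- the cocycle identity
      ext ⟨g, h⟩
      apply S56Ad0.ext
      have hc := s56tanCocOf_isCocycle U φ g h
      have hc' : zE φ (g * h) = zE φ g + ρbar.ρ g * zE φ h * ρbar.ρ g⁻¹ := by
        show Matrix.toLin bbar bbar (s56tanCocOf U φ (g * h)) = _
        rw [hc, map_add, Matrix.toLin_mul bbar bbar bbar, Matrix.toLin_mul bbar bbar bbar, hrbar,
          hrbar]
        rfl
      show (s56Ad0 p ρbar g (f φ h) - f φ (g * h) + f φ g).val = 0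
      have : (s56Ad0 p ρbar g (f φ h) - f φ (g * h) + f φ g).val =
          ρbar.ρ g * zE φ h * ρbar.ρ g⁻¹ - zE φ (g * h) + zE φ g := rfl
      rw [this, hc']
      abel
    · by_cases hs : Function.Surjective φ
      · have hφ := s56tan_isLocalHom_dualNumber φ
        obtain ⟨V, hV, hVc⟩ := (hlift φ hφ).isLC S' (hD _ (hBC φ hφ hs)).2
        exact ⟨V, hV, fun g s hs => S56Ad0.ext (hVc g s hs)⟩
      · have : f φ = fun _ => 0 := by
          funext g
          exact S56Ad0.ext (hzero φ hs g)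
        rw [this]
        exact isLC₁_const _ _
  · intro φ φ' hB
    obtain ⟨m, hm⟩ := (mem_smB1 _ _).mp hB
    refine s56tan_injective U φ hBC φ' (LinearMap.toMatrix bbar bbar m.val) fun g => ?_
    have h1 : (dd0 (s56Ad0 p ρbar) m g).val = (f φ' g - f φ g).val := by
      rw [hm]; rfl
    have h2 : ρbar.ρ g * m.val * ρbar.ρ g⁻¹ - m.val = zE φ' g - zE φ g := h1
    have h3 := congrArg (LinearMap.toMatrix bbar bbar) h2
    rw [map_sub, map_sub, LinearMap.toMatrix_mul, LinearMap.toMatrix_mul] at h3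
    have h4 : ∀ ψ : DQ.R →ₐ[𝒪] DualNumber (ResidueField 𝒪),
        LinearMap.toMatrix bbar bbar (zE ψ g) = s56tanCocOf U ψ g :=
      fun ψ => LinearMap.toMatrix_toLin bbar bbar _
    rw [h4, h4] at h3
    have h5 : ∀ x : GQ', LinearMap.toMatrix bbar bbar (ρbar.ρ x) = residualMat ρbar bbar x :=
      fun x => rfl
    rw [h5, h5] at h3
    rw [h3]
    abel
  · intro φ
    by_cases hs : Function.Surjective φ
    · right
      have hφ := s56tan_isLocalHom_dualNumber φ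
      exact ⟨_, hBC φ hφ hs, hlift φ hφ⟩
    · left
      funext g
      exact S56Ad0.ext (hzero φ hs g)

/-- **T2, Selmer form.** If moreover the cocycle of every lift of type `𝒟` in normal form satisfies
the local conditions `𝒵` at the places of `S'`, the tangent space injects into the Selmer group. -/
theorem s56tan_exists_injective_sel
    (DQ : GaloisRep.DeformationRingData 𝒪 ρbar 𝒟)
    (bbar : Module.Basis (Fin 2) (ResidueField 𝒪) ρbar.V) (S' : Finset Nat.Primes)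
    (hBC : ∀ (ψ : DQ.R →ₐ[𝒪] DualNumber (ResidueField 𝒪))
      (hψ : IsLocalHom (ψ : DQ.R →+* DualNumber (ResidueField 𝒪))), Function.Surjective ψ →
        𝒟 (DQ.ρ.baseChangeAlong (ψ : DQ.R →+* DualNumber (ResidueField 𝒪)) hψ))
    (hD : ∀ ρ' : GaloisRepAdic (DualNumber (ResidueField 𝒪)), 𝒟 ρ' →
      ρ'.DetIsCyclotomic p ∧ ∀ q : Nat.Primes, q ∉ S' → ρ'.IsUnramifiedAt (q : ℕ))
    (𝒵 : S56LocCond p ρbar)
    (hloc : ∀ (ρ' : GaloisRepAdic (DualNumber (ResidueField 𝒪))) (z : GQ' → S56Ad0 ρbar),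
      𝒟 ρ' → z ∈ smZ1 (levelsS S') (s56Ad0 p ρbar) →
      S56IsTanLift ρbar bbar ρ' (fun g => (z g).val) →
      ∀ v : ↥S', (fun γ : primeLocalGaloisGroup v.1 => z (primeLocalToGlobal v.1 γ)) ∈ 𝒵 v.1) :
    ∃ f : (DQ.R →ₐ[𝒪] DualNumber (ResidueField 𝒪)) → ↥(s56SelQ p ρbar S' 𝒵),
      Function.Injective f := by
  obtain ⟨f, hZ, hinj, hlift⟩ := s56tan_exists_family p DQ bbar S' hBC hD
  have hmem : ∀ φ, smH1π (levelsS S') (s56Ad0 p ρbar) ⟨f φ, hZ φ⟩ ∈ s56SelQ p ρbar S' 𝒵 := by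
    intro φ
    unfold s56SelQ
    rw [mem_s56Sel]
    intro v
    have h1 : locP1 (locSysS S') (ρ := s56Ad0 p ρbar)
        (smH1π (levelsS S') (s56Ad0 p ρbar) ⟨f φ, hZ φ⟩) v =
        smH1π ((locSysS S').lev v) ((locSysS S').rep (s56Ad0 p ρbar) v)
          (smZ1res (s56Ad0 p ρbar) ((locSysS S').cont v) ⟨f φ, hZ φ⟩) := rfl
    rw [h1]
    unfold s56LocSub
    refine Submodule.mem_map_of_mem ?_
    rw [Submodule.mem_comap]
    show (fun γ : primeLocalGaloisGroup v.1 => f φ (primeLocalToGlobal v.1 γ)) ∈ 𝒵 v.1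
    rcases hlift φ with h0 | ⟨ρ', hρ', hl⟩
    · rw [h0]
      exact (𝒵 v.1).zero_mem
    · exact hloc ρ' (f φ) hρ' (hZ φ) hl v
  refine ⟨fun φ => ⟨_, hmem φ⟩, fun φ' φ h => ?_⟩
  have h1 : smH1π (levelsS S') (s56Ad0 p ρbar) ⟨f φ', hZ φ'⟩ =
      smH1π (levelsS S') (s56Ad0 p ρbar) ⟨f φ, hZ φ⟩ := congrArg Subtype.val h
  rw [← sub_eq_zero, ← map_sub, smH1π_eq_zero_iff] at h1
  exact hinj φ φ' h1

end Main

end Fermat.Agent.S56
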