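/-
S56 / Tan (T2 → T24): the last clause of `S56Dict` (injection of the tangent space into the Selmer
group) for the two deformation conditions of S56, REDUCED to the local dictionary:
"the cocycle of a lift of type `𝒟` in normal form satisfies `𝒵` at every place of `S'`".
(Helper names are prefixed `s56tan`.)
-/
import Mathlib
import Fermat.Agent.S56.Tan.Sel
import Fermat.Agent.S56.Tan.BaseChange

set_option autoImplicit false

noncomputable section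

namespace Fermat.Agent.S56

open IsLocalRing Fermat.Agent.S53 Fermat.Agent.S55 ExtCitation

local notation "GQ'" => AlgebraicClosure ℚ ≃ₐ[ℚ] AlgebraicClosure ℚ

attribute [local instance] Fermat.Agent.S53.dualNumberAlgebra

section Main

variable {𝒪 : Type} [CommRing 𝒪] [IsDomain 𝒪] [IsDiscreteValuationRing 𝒪]
  [IsAdicComplete (maximalIdeal 𝒪) 𝒪] [Finite (ResidueField 𝒪)]
  (p : ℕ) [Fact p.Prime] [CharP (ResidueField 𝒪) p]
  {ρbar : ResidualGaloisRep (ResidueField 𝒪)}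

/-- the strict-ordinary half of the dictionary, reduced to the local conditions -/
theorem s56tan_injective_sel_ord (Smin Q : Finset ℕ)
    (DQ : GaloisRep.DeformationRingData 𝒪 ρbar (s56CondOrd (𝒪 := 𝒪) p Smin Q))
    (bbar : Module.Basis (Fin 2) (ResidueField 𝒪) ρbar.V) (𝒵 : S56LocCond p ρbar)
    (hloc : ∀ (ρ' : GaloisRepAdic (DualNumber (ResidueField 𝒪))) (z : GQ' → S56Ad0 ρbar),
      s56CondOrd (𝒪 := 𝒪) p Smin Q ρ' →
      z ∈ smZ1 (levelsS (s56Primes (Smin ∪ Q))) (s56Ad0 p ρbar) →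
      S56IsTanLift ρbar bbar ρ' (fun g => (z g).val) →
      ∀ v : ↥(s56Primes (Smin ∪ Q)),
        (fun γ : primeLocalGaloisGroup v.1 => z (primeLocalToGlobal v.1 γ)) ∈ 𝒵 v.1) :
    ∃ f : (DQ.R →ₐ[𝒪] DualNumber (ResidueField 𝒪)) →
        ↥(s56SelQ p ρbar (s56Primes (Smin ∪ Q)) 𝒵), Function.Injective f := by
  refine s56tan_exists_injective_sel p DQ bbar (s56Primes (Smin ∪ Q)) ?_ ?_ 𝒵 hloc
  · intro ψ hψ _
    exact s56bc_cond_strictOrdinary (𝒪 := 𝒪) (ψ : DQ.R →+* DualNumber (ResidueField 𝒪)) hψ p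
      (Smin ∪ Q) Smin DQ.ρ DQ.isOfType
  · intro ρ' hρ'
    refine ⟨hρ'.1.1, fun q hq => hρ'.1.2.2 q q.2 fun hmem => hq ?_⟩
    exact (mem_s56Primes _ q).mpr hmem

/-- the flat half of the dictionary, reduced to the local conditions -/
theorem s56tan_injective_sel_flat (Smin Q : Finset ℕ)
    (DQ : GaloisRep.DeformationRingData 𝒪 ρbar (s56CondFlat (𝒪 := 𝒪) p Smin Q))
    (bbar : Module.Basis (Fin 2) (ResidueField 𝒪) ρbar.V) (𝒵 : S56LocCond p ρbar)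
    (hloc : ∀ (ρ' : GaloisRepAdic (DualNumber (ResidueField 𝒪))) (z : GQ' → S56Ad0 ρbar),
      s56CondFlat (𝒪 := 𝒪) p Smin Q ρ' →
      z ∈ smZ1 (levelsS (s56Primes (Smin ∪ Q))) (s56Ad0 p ρbar) →
      S56IsTanLift ρbar bbar ρ' (fun g => (z g).val) →
      ∀ v : ↥(s56Primes (Smin ∪ Q)),
        (fun γ : primeLocalGaloisGroup v.1 => z (primeLocalToGlobal v.1 γ)) ∈ 𝒵 v.1) :
    ∃ f : (DQ.R →ₐ[𝒪] DualNumber (ResidueField 𝒪)) →
        ↥(s56SelQ p ρbar (s56Primes (Smin ∪ Q)) 𝒵), Function.Injective f := by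
  refine s56tan_exists_injective_sel p DQ bbar (s56Primes (Smin ∪ Q)) ?_ ?_ 𝒵 hloc
  · intro ψ hψ hs
    exact s56bc_cond_flat (𝒪 := 𝒪) (ψ : DQ.R →+* DualNumber (ResidueField 𝒪)) hψ hs p
      (Smin ∪ Q) Smin DQ.ρ DQ.isOfType
  · intro ρ' hρ'
    refine ⟨hρ'.1.1, fun q hq => hρ'.1.2.2 q q.2 fun hmem => hq ?_⟩
    exact (mem_s56Primes _ q).mpr hmem

/-- **`S56Dict` from purely local data.**  For a deformation condition `𝒟 Q` stable under base change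
along surjections to `k[ε]` and implying "cyclotomic determinant" and "unramified outside
`Smin ∪ Q`": a family of local conditions `𝒵`, trivial outside `Smin`, with the two size bounds,
such that the cocycle of every lift of type `𝒟 Q` over `k[ε]` in normal form satisfies `𝒵 q` at the
primes `q ∈ Smin`, gives the dictionary. -/
theorem s56tan_dict_of_local (Smin : Finset ℕ)
    (𝒟 : Finset ℕ → ∀ ⦃A : Type⦄ [CommRing A] [IsLocalRing A] [Algebra 𝒪 A],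
      GaloisRepAdic A → Prop)
    (hBC : ∀ (Q : Finset ℕ) (DQ : GaloisRep.DeformationRingData 𝒪 ρbar (𝒟 Q))
      (ψ : DQ.R →ₐ[𝒪] DualNumber (ResidueField 𝒪))
      (hψ : IsLocalHom (ψ : DQ.R →+* DualNumber (ResidueField 𝒪))), Function.Surjective ψ →
        𝒟 Q (DQ.ρ.baseChangeAlong (ψ : DQ.R →+* DualNumber (ResidueField 𝒪)) hψ))
    (h𝒟 : ∀ (Q : Finset ℕ) (ρ' : GaloisRepAdic (DualNumber (ResidueField 𝒪))), 𝒟 Q ρ' →
      ρ'.DetIsCyclotomic p ∧ ∀ q : ℕ, q.Prime → q ∉ Smin ∪ Q → ρ'.IsUnramifiedAt q)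
    (bbar : Module.Basis (Fin 2) (ResidueField 𝒪) ρbar.V)
    (𝒵 : S56LocCond p ρbar) (h𝒵top : ∀ q : Nat.Primes, (q : ℕ) ∉ Smin → 𝒵 q = ⊤)
    (hcardp : ∀ (S' : Finset Nat.Primes) (v : ↥S'), ((v.1 : Nat.Primes) : ℕ) = p →
      Nat.card ↥(s56LocSub p ρbar S' 𝒵 v) ≤ Nat.card (ResidueField 𝒪) *
        Nat.card ↥(smH0 ((locSysS S').rep (s56Ad0 p ρbar) v)))
    (hcardq : ∀ (S' : Finset Nat.Primes) (v : ↥S'), ((v.1 : Nat.Primes) : ℕ) ∈ Smin →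
      ((v.1 : Nat.Primes) : ℕ) ≠ p →
      Nat.card ↥(s56LocSub p ρbar S' 𝒵 v) ≤
        Nat.card ↥(smH0 ((locSysS S').rep (s56Ad0 p ρbar) v)))
    (hloc : ∀ (Q : Finset ℕ) (ρ' : GaloisRepAdic (DualNumber (ResidueField 𝒪)))
      (z : GQ' → S56Ad0 ρbar), 𝒟 Q ρ' →
      z ∈ smZ1 (levelsS (s56Primes (Smin ∪ Q))) (s56Ad0 p ρbar) →
      S56IsTanLift ρbar bbar ρ' (fun g => (z g).val) →
      ∀ q : Nat.Primes, (q : ℕ) ∈ Smin →
        (fun γ : primeLocalGaloisGroup q => z (primeLocalToGlobal q γ)) ∈ 𝒵 q) :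
    S56Dict p ρbar Smin 𝒟 := by
  refine ⟨𝒵, h𝒵top, hcardp, hcardq, fun Q _ DQ => ?_⟩
  refine s56tan_exists_injective_sel p DQ bbar (s56Primes (Smin ∪ Q)) (hBC Q DQ) ?_ 𝒵 ?_
  · intro ρ' hρ'
    refine ⟨(h𝒟 Q ρ' hρ').1, fun q hq => (h𝒟 Q ρ' hρ').2 q q.2 fun hmem => hq ?_⟩
    exact (mem_s56Primes _ q).mpr hmem
  · intro ρ' z hρ' hz hl v
    by_cases hv : ((v.1 : Nat.Primes) : ℕ) ∈ Smin
    · exact hloc Q ρ' z hρ' hz hl v.1 hv
    · rw [h𝒵top v.1 hv]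
      exact Submodule.mem_top

/-- `s56_dict_ord` from purely local data -/
theorem s56tan_dict_ord_of_local (Smin : Finset ℕ)
    (bbar : Module.Basis (Fin 2) (ResidueField 𝒪) ρbar.V)
    (𝒵 : S56LocCond p ρbar) (h𝒵top : ∀ q : Nat.Primes, (q : ℕ) ∉ Smin → 𝒵 q = ⊤)
    (hcardp : ∀ (S' : Finset Nat.Primes) (v : ↥S'), ((v.1 : Nat.Primes) : ℕ) = p →
      Nat.card ↥(s56LocSub p ρbar S' 𝒵 v) ≤ Nat.card (ResidueField 𝒪) *
        Nat.card ↥(smH0 ((locSysS S').rep (s56Ad0 p ρbar) v)))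
    (hcardq : ∀ (S' : Finset Nat.Primes) (v : ↥S'), ((v.1 : Nat.Primes) : ℕ) ∈ Smin →
      ((v.1 : Nat.Primes) : ℕ) ≠ p →
      Nat.card ↥(s56LocSub p ρbar S' 𝒵 v) ≤
        Nat.card ↥(smH0 ((locSysS S').rep (s56Ad0 p ρbar) v)))
    (hloc : ∀ (Q : Finset ℕ) (ρ' : GaloisRepAdic (DualNumber (ResidueField 𝒪)))
      (z : GQ' → S56Ad0 ρbar), s56CondOrd (𝒪 := 𝒪) p Smin Q ρ' →
      z ∈ smZ1 (levelsS (s56Primes (Smin ∪ Q))) (s56Ad0 p ρbar) →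
      S56IsTanLift ρbar bbar ρ' (fun g => (z g).val) →
      ∀ q : Nat.Primes, (q : ℕ) ∈ Smin →
        (fun γ : primeLocalGaloisGroup q => z (primeLocalToGlobal q γ)) ∈ 𝒵 q) :
    S56Dict p ρbar Smin (fun Q => s56CondOrd (𝒪 := 𝒪) p Smin Q) := by
  refine s56tan_dict_of_local p Smin (fun Q => s56CondOrd (𝒪 := 𝒪) p Smin Q) ?_ ?_ bbar 𝒵 h𝒵top
    hcardp hcardq hloc
  · intro Q DQ ψ hψ _
    exact s56bc_cond_strictOrdinary (𝒪 := 𝒪) (ψ : DQ.R →+* DualNumber (ResidueField 𝒪)) hψ p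
      (Smin ∪ Q) Smin DQ.ρ DQ.isOfType
  · intro Q ρ' hρ'
    exact ⟨hρ'.1.1, hρ'.1.2.2⟩

/-- `s56_dict_flat` from purely local data -/
theorem s56tan_dict_flat_of_local (Smin : Finset ℕ)
    (bbar : Module.Basis (Fin 2) (ResidueField 𝒪) ρbar.V)
    (𝒵 : S56LocCond p ρbar) (h𝒵top : ∀ q : Nat.Primes, (q : ℕ) ∉ Smin → 𝒵 q = ⊤)
    (hcardp : ∀ (S' : Finset Nat.Primes) (v : ↥S'), ((v.1 : Nat.Primes) : ℕ) = p →
      Nat.card ↥(s56LocSub p ρbar S' 𝒵 v) ≤ Nat.card (ResidueField 𝒪) *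
        Nat.card ↥(smH0 ((locSysS S').rep (s56Ad0 p ρbar) v)))
    (hcardq : ∀ (S' : Finset Nat.Primes) (v : ↥S'), ((v.1 : Nat.Primes) : ℕ) ∈ Smin →
      ((v.1 : Nat.Primes) : ℕ) ≠ p →
      Nat.card ↥(s56LocSub p ρbar S' 𝒵 v) ≤
        Nat.card ↥(smH0 ((locSysS S').rep (s56Ad0 p ρbar) v)))
    (hloc : ∀ (Q : Finset ℕ) (ρ' : GaloisRepAdic (DualNumber (ResidueField 𝒪)))
      (z : GQ' → S56Ad0 ρbar), s56CondFlat (𝒪 := 𝒪) p Smin Q ρ' →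
      z ∈ smZ1 (levelsS (s56Primes (Smin ∪ Q))) (s56Ad0 p ρbar) →
      S56IsTanLift ρbar bbar ρ' (fun g => (z g).val) →
      ∀ q : Nat.Primes, (q : ℕ) ∈ Smin →
        (fun γ : primeLocalGaloisGroup q => z (primeLocalToGlobal q γ)) ∈ 𝒵 q) :
    S56Dict p ρbar Smin (fun Q => s56CondFlat (𝒪 := 𝒪) p Smin Q) := by
  refine s56tan_dict_of_local p Smin (fun Q => s56CondFlat (𝒪 := 𝒪) p Smin Q) ?_ ?_ bbar 𝒵 h𝒵top
    hcardp hcardq hloc
  · intro Q DQ ψ hψ hs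
    exact s56bc_cond_flat (𝒪 := 𝒪) (ψ : DQ.R →+* DualNumber (ResidueField 𝒪)) hψ hs p
      (Smin ∪ Q) Smin DQ.ρ DQ.isOfType
  · intro Q ρ' hρ'
    exact ⟨hρ'.1.1, hρ'.1.2.2⟩

end Main

end Fermat.Agent.S56
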