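/-
S56 / TOP leaf T1c: few tangent vectors give few generators (cardinality form).
Statement verbatim from `Top/Spec.lean`; proof from `Tan/DualHom.lean`.
-/
import Mathlib
import Fermat.Agent.S56.Tan.DualHom

set_option autoImplicit false

noncomputable section

namespace Fermat.Agent.S56

open IsLocalRing

variable {𝒪 : Type} [CommRing 𝒪] [IsDomain 𝒪] [IsDiscreteValuationRing 𝒪]
  [IsAdicComplete (maximalIdeal 𝒪) 𝒪] [Finite (ResidueField 𝒪)]

/-- **leaf T1 (cardinality form).** few tangent vectors ⟹ few generators -/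
theorem s56_surjective_of_card_le
    {R : Type} [CommRing R] [IsLocalRing R] [IsNoetherianRing R]
    [IsAdicComplete (maximalIdeal R) R] [Algebra 𝒪 R] [IsLocalHom (algebraMap 𝒪 R)]
    (hres : Function.Surjective (IsLocalRing.residue R ∘ algebraMap 𝒪 R)) (r : ℕ)
    (hcard : letI := Fermat.Agent.S53.dualNumberAlgebra 𝒪
      ∃ (X : Type) (_ : Finite X) (f : (R →ₐ[𝒪] DualNumber (ResidueField 𝒪)) → X),
        Function.Injective f ∧ Nat.card X ≤ Nat.card (ResidueField 𝒪) ^ r) :
    ∃ γ : MvPowerSeries (Fin r) 𝒪 →ₐ[𝒪] R, Function.Surjective γ := by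
  letI := Fermat.Agent.S53.dualNumberAlgebra 𝒪
  obtain ⟨X, hX, f, hf, hle⟩ := hcard
  exact s56tan_exists_surjective_of_card_le hres r
    ((Nat.card_le_card_of_injective f hf).trans hle)

end Fermat.Agent.S56
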